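/-
Fermat/Agent/Jac/AlgChart76/Statement.lean  (helper76)

JAC brick R2a (AlgChartPackage), top-level STATEMENT: the algebraic mirror, on affine test rings,
of `ChartPackage` (`Jac/RepInterface.lean`).

* `FamTheory k` : an abstract "moduli problem on `k`-algebras up to isomorphism": objects over
  every `k`-algebra `A : Type u`, an isomorphism relation, and a base-change RELATION along
  `k`-algebra homomorphisms (a pseudo-functor into setoids).
* `AlgChart F` : an open subfunctor of `F` represented by an open subscheme `O` of an affine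
  `k`-scheme `Spec H`: for every object `L` over `A` an open `locus L ⊆ Spec A`, compatible with
  isomorphisms and base change; a universal object `U` over `H` with `locus U = O`; every object
  whose locus is everything is the base change of `U` along a unique `ψ : H →ₐ[k] A`.
* `AlgChartPackage F` : a family of charts whose loci cover `Spec A` for every object.
* `Translation F F'`, `AlgChart.transport` : charts can be transported along translations of
  moduli problems (e.g. twisting by a fixed divisor).

The concrete instance (line `QC2`'s over `c0.baseChange A`, rigidifiable at `P0`, of fibrewise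
Euler characteristic `1 - g`; base change = `JSmooth85Alg.LiftData`) is in
`AlgChart76/LineFam.lean`; the package for it is assembled from blueprint 271, Claims 1-7.
-/
import Mathlib

set_option autoImplicit false

universe u

namespace Fermat.Agent.Jac.AlgChart76

/-- A moduli problem on `k`-algebras "up to isomorphism": objects, isomorphism relation,
base-change relation. -/
structure FamTheory (k : Type u) [Field k] where
  /-- the objects over a `k`-algebra -/
  Obj : ∀ (A : Type u) [CommRing A] [Algebra k A], Type (u + 1)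
  /-- the isomorphism relation -/
  Iso : ∀ {A : Type u} [CommRing A] [Algebra k A], Obj A → Obj A → Prop
  iso_refl : ∀ {A : Type u} [CommRing A] [Algebra k A] (L : Obj A), Iso L L
  iso_symm : ∀ {A : Type u} [CommRing A] [Algebra k A] {L L' : Obj A}, Iso L L' → Iso L' L
  iso_trans : ∀ {A : Type u} [CommRing A] [Algebra k A] {L L' L'' : Obj A},
    Iso L L' → Iso L' L'' → Iso L L''
  /-- `BC φ L L'`: the object `L'` over `A'` is a base change of `L` along `φ : A →ₐ[k] A'` -/
  BC : ∀ {A A' : Type u} [CommRing A] [CommRing A'] [Algebra k A] [Algebra k A'],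
    (A →ₐ[k] A') → Obj A → Obj A' → Prop
  bc_exists : ∀ {A A' : Type u} [CommRing A] [CommRing A'] [Algebra k A] [Algebra k A']
    (φ : A →ₐ[k] A') (L : Obj A), ∃ L' : Obj A', BC φ L L'
  bc_unique : ∀ {A A' : Type u} [CommRing A] [CommRing A'] [Algebra k A] [Algebra k A']
    {φ : A →ₐ[k] A'} {L : Obj A} {L₁ L₂ : Obj A'}, BC φ L L₁ → BC φ L L₂ → Iso L₁ L₂
  bc_iso : ∀ {A A' : Type u} [CommRing A] [CommRing A'] [Algebra k A] [Algebra k A']
    {φ : A →ₐ[k] A'} {L M : Obj A} {L' M' : Obj A'}, BC φ L L' → Iso L M → Iso L' M' → BC φ M M'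
  bc_id : ∀ {A : Type u} [CommRing A] [Algebra k A] (L : Obj A), BC (AlgHom.id k A) L L
  bc_comp : ∀ {A A' A'' : Type u} [CommRing A] [CommRing A'] [CommRing A''] [Algebra k A]
    [Algebra k A'] [Algebra k A''] {φ : A →ₐ[k] A'} {φ' : A' →ₐ[k] A''} {L : Obj A} {L' : Obj A'}
    {L'' : Obj A''}, BC φ L L' → BC φ' L' L'' → BC (φ'.comp φ) L L''

/-- One chart of the moduli problem `F`: an open subfunctor represented by an open subscheme `O`
of an affine `k`-scheme `Spec H`. -/
structure AlgChart {k : Type u} [Field k] (F : FamTheory k) where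
  /-- coordinate ring of the ambient affine scheme of the chart -/
  H : Type u
  [ringH : CommRing H]
  [algH : Algebra k H]
  /-- the chart is the open subscheme `O` of `Spec H` -/
  O : TopologicalSpace.Opens (PrimeSpectrum H)
  /-- the universal object (defined over all of `Spec H`) -/
  U : F.Obj H
  /-- the open locus of `Spec A` where `L` is classified by the chart -/
  locus : ∀ {A : Type u} [CommRing A] [Algebra k A],
    F.Obj A → TopologicalSpace.Opens (PrimeSpectrum A)
  locus_iso : ∀ {A : Type u} [CommRing A] [Algebra k A] {L L' : F.Obj A},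
    F.Iso L L' → locus L = locus L'
  /-- the formation of the locus commutes with base change -/
  locus_bc : ∀ {A A' : Type u} [CommRing A] [CommRing A'] [Algebra k A] [Algebra k A']
    (φ : A →ₐ[k] A') {L : F.Obj A} {L' : F.Obj A'}, F.BC φ L L' →
    (locus L' : Set (PrimeSpectrum A')) = PrimeSpectrum.comap φ.toRingHom ⁻¹' (locus L)
  /-- the locus of the universal object is the chart -/
  locus_univ : locus U = O
  /-- an object whose locus is everything is a base change of the universal object -/
  classify : ∀ {A : Type u} [CommRing A] [Algebra k A] (L : F.Obj A), locus L = ⊤ →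
    ∃ (ψ : H →ₐ[k] A) (L' : F.Obj A), F.BC ψ U L' ∧ F.Iso L' L
  /-- ... along a unique homomorphism -/
  unique : ∀ {A : Type u} [CommRing A] [Algebra k A] (ψ ψ' : H →ₐ[k] A)
    {L₁ L₂ : F.Obj A}, F.BC ψ U L₁ → F.BC ψ' U L₂ → F.Iso L₁ L₂ → locus L₁ = ⊤ → ψ = ψ'

attribute [instance] AlgChart.ringH AlgChart.algH

/-- A covering of the moduli problem `F` by charts (algebraic mirror of
`Fermat.Agent.Jac.ChartPackage` on affine test rings). -/
structure AlgChartPackage {k : Type u} [Field k] (F : FamTheory k) where
  /-- index set of the charts -/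
  ι : Type u
  /-- the charts -/
  chart : ι → AlgChart F
  /-- the loci cover `Spec A` -/
  cover : ∀ {A : Type u} [CommRing A] [Algebra k A] (L : F.Obj A), ⨆ i, (chart i).locus L = ⊤

namespace AlgChart

variable {k : Type u} [Field k] {F : FamTheory k} (ch : AlgChart F)

/-- A base change of the universal object along `ψ` has locus `ψ⁻¹(O)`. -/
theorem locus_of_bc_univ {A : Type u} [CommRing A] [Algebra k A] (ψ : ch.H →ₐ[k] A)
    {L : F.Obj A} (h : F.BC ψ ch.U L) :
    (ch.locus L : Set (PrimeSpectrum A)) = PrimeSpectrum.comap ψ.toRingHom ⁻¹' ch.O := by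
  rw [ch.locus_bc ψ h, ch.locus_univ]

/-- The classifying homomorphism lands in the chart. -/
theorem comap_mem_of_bc_univ {A : Type u} [CommRing A] [Algebra k A]
    (ψ : ch.H →ₐ[k] A) {L : F.Obj A} (h : F.BC ψ ch.U L) (hL : ch.locus L = ⊤)
    (p : PrimeSpectrum A) : PrimeSpectrum.comap ψ.toRingHom p ∈ ch.O := by
  have h1 := ch.locus_of_bc_univ ψ h
  have h2 : p ∈ (ch.locus L : Set (PrimeSpectrum A)) := by rw [hL]; trivial
  rw [h1] at h2
  exact h2

/-- A base change of the universal object along a homomorphism landing in the chart has full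
locus. -/
theorem locus_eq_top_of_bc_univ {A : Type u} [CommRing A] [Algebra k A]
    (ψ : ch.H →ₐ[k] A) {L : F.Obj A} (h : F.BC ψ ch.U L)
    (hψ : ∀ p, PrimeSpectrum.comap ψ.toRingHom p ∈ ch.O) : ch.locus L = ⊤ := by
  apply TopologicalSpace.Opens.ext
  rw [ch.locus_of_bc_univ ψ h]
  ext p
  simpa using hψ p

/-- Universality: if a base change of the universal object along a homomorphism landing in the
chart is isomorphic to a base change of `L`, the corresponding map of spectra lands in the locus
of `L`. -/
theorem universal {A A' : Type u} [CommRing A] [CommRing A'] [Algebra k A]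
    [Algebra k A'] (φ : A →ₐ[k] A') (ψ : ch.H →ₐ[k] A') {L : F.Obj A} {L' M' : F.Obj A'}
    (hL : F.BC φ L L') (hM : F.BC ψ ch.U M') (e : F.Iso M' L')
    (hψ : ∀ p, PrimeSpectrum.comap ψ.toRingHom p ∈ ch.O) (p : PrimeSpectrum A') :
    PrimeSpectrum.comap φ.toRingHom p ∈ ch.locus L := by
  have h1 : (ch.locus L' : Set (PrimeSpectrum A')) =
      PrimeSpectrum.comap φ.toRingHom ⁻¹' (ch.locus L) := ch.locus_bc φ hL
  have h3 : ch.locus M' = ch.locus L' := ch.locus_iso e
  have h4 : p ∈ (ch.locus M' : Set (PrimeSpectrum A')) := by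
    rw [ch.locus_eq_top_of_bc_univ ψ hM hψ]; trivial
  rw [h3] at h4
  have h5 : p ∈ (ch.locus L' : Set (PrimeSpectrum A')) := h4
  rw [h1] at h5
  exact h5

end AlgChart

/-! ### Transport of charts along a translation of moduli problems -/

/-- A translation `T : F → F'` of moduli problems which is compatible with isomorphisms and base
change and injective on isomorphism classes (e.g. twisting line bundles by a fixed divisor). -/
structure Translation {k : Type u} [Field k] (F F' : FamTheory k) where
  /-- the translation on objects -/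
  T : ∀ {A : Type u} [CommRing A] [Algebra k A], F.Obj A → F'.Obj A
  iso : ∀ {A : Type u} [CommRing A] [Algebra k A] {L L' : F.Obj A},
    F.Iso L L' → F'.Iso (T L) (T L')
  iso_inv : ∀ {A : Type u} [CommRing A] [Algebra k A] {L L' : F.Obj A},
    F'.Iso (T L) (T L') → F.Iso L L'
  bc : ∀ {A A' : Type u} [CommRing A] [CommRing A'] [Algebra k A] [Algebra k A']
    {φ : A →ₐ[k] A'} {L : F.Obj A} {L' : F.Obj A'}, F.BC φ L L' → F'.BC φ (T L) (T L')

/-- Transport of a chart of `F'` along a translation `T : F → F'`, given a preimage `U` of the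
universal object. -/
def AlgChart.transport {k : Type u} [Field k] {F F' : FamTheory k} (τ : Translation F F')
    (ch : AlgChart F') (U : F.Obj ch.H) (hU : F'.Iso (τ.T U) ch.U) : AlgChart F where
  H := ch.H
  O := ch.O
  U := U
  locus L := ch.locus (τ.T L)
  locus_iso e := ch.locus_iso (τ.iso e)
  locus_bc φ _ _ h := ch.locus_bc φ (τ.bc h)
  locus_univ := (ch.locus_iso hU).trans ch.locus_univ
  classify := by
    intro A _ _ L hL
    obtain ⟨ψ, M', hM', eM'⟩ := ch.classify (τ.T L) hL
    obtain ⟨L'', hL''⟩ := F.bc_exists ψ U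
    refine ⟨ψ, L'', hL'', τ.iso_inv ?_⟩
    have h1 : F'.BC ψ ch.U (τ.T L'') := F'.bc_iso (τ.bc hL'') hU (F'.iso_refl _)
    exact F'.iso_trans (F'.bc_unique h1 hM') eM'
  unique := by
    intro A _ _ ψ ψ' L₁ L₂ h₁ h₂ e hL
    have h1 : F'.BC ψ ch.U (τ.T L₁) := F'.bc_iso (τ.bc h₁) hU (F'.iso_refl _)
    have h2 : F'.BC ψ' ch.U (τ.T L₂) := F'.bc_iso (τ.bc h₂) hU (F'.iso_refl _)
    exact ch.unique ψ ψ' h1 h2 (τ.iso e) hL

end Fermat.Agent.Jac.AlgChart76
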