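/-
Fermat/Agent/Jac/AlgChart76/Fibrewise.lean  (helper76)

JAC brick R2a: an abstract BUILDER for `AlgChart`s whose locus is defined FIBREWISE.

For a moduli problem `F : FamTheory k`, a chart is built from
* a `k`-algebra `H` and an object `U` over `H`;
* a predicate `w` on objects over FIELDS `K` (a `k`-algebra in `Type u`), invariant under
  isomorphism (`w_iso`) and under field extension, in both directions (`w_bc`);
* openness: for `L` over `A`, the set of `p ∈ Spec A` such that the fibre `L_p` (any base change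
  of `L` to `κ(p)`) satisfies `w` is open (`isOpen`);
* classification: if all fibres of `L` satisfy `w`, then `L` is a base change of `U` along some
  `ψ : H →ₐ[k] A` (`classify`), unique (`unique`).

`FibrewiseChart.toAlgChart` is the chart with `locus L = {p | w (L_p)}` and `O = locus U`.
-/
import Mathlib
import Fermat.Agent.Jac.AlgChart76.Statement

set_option autoImplicit false

universe u

namespace Fermat.Agent.Jac.AlgChart76

variable {k : Type u} [Field k]

/-- The residue homomorphism at a point of `Spec A`, as a `k`-algebra homomorphism. -/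
noncomputable def resHom {A : Type u} [CommRing A] [Algebra k A] (p : PrimeSpectrum A) :
    A →ₐ[k] p.asIdeal.ResidueField :=
  IsScalarTower.toAlgHom k A p.asIdeal.ResidueField

@[simp]
theorem resHom_apply {A : Type u} [CommRing A] [Algebra k A] (p : PrimeSpectrum A) (a : A) :
    resHom (k := k) p a = algebraMap A p.asIdeal.ResidueField a := rfl

/-- The map of residue fields induced by a `k`-algebra homomorphism. -/
noncomputable def resMap {A A' : Type u} [CommRing A] [CommRing A'] [Algebra k A] [Algebra k A']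
    (φ : A →ₐ[k] A') (p' : PrimeSpectrum A') :
    (PrimeSpectrum.comap φ.toRingHom p').asIdeal.ResidueField →ₐ[k] p'.asIdeal.ResidueField :=
  Ideal.ResidueField.mapₐ (PrimeSpectrum.comap φ.toRingHom p').asIdeal p'.asIdeal φ rfl

theorem resMap_comp_resHom {A A' : Type u} [CommRing A] [CommRing A'] [Algebra k A]
    [Algebra k A'] (φ : A →ₐ[k] A') (p' : PrimeSpectrum A') :
    (resMap φ p').comp (resHom (PrimeSpectrum.comap φ.toRingHom p')) = (resHom p').comp φ := by
  refine AlgHom.ext fun a => ?_
  simp only [AlgHom.comp_apply, resHom_apply, resMap, Ideal.ResidueField.mapₐ_apply]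
  exact Ideal.ResidueField.map_algebraMap _ _ _ _ a

/-- The set of points whose fibre satisfies a condition on field-valued objects. -/
def fibreSet (F : FamTheory k)
    (w : ∀ {K : Type u} [Field K] [Algebra k K], F.Obj K → Prop)
    {A : Type u} [CommRing A] [Algebra k A] (L : F.Obj A) : Set (PrimeSpectrum A) :=
  {p | ∃ Lp : F.Obj p.asIdeal.ResidueField, F.BC (resHom p) L Lp ∧ w Lp}

/-- Data for a chart whose locus is defined fibrewise. -/
structure FibrewiseChart (F : FamTheory k) where
  /-- coordinate ring of the ambient affine scheme -/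
  H : Type u
  [ringH : CommRing H]
  [algH : Algebra k H]
  /-- the universal object -/
  U : F.Obj H
  /-- the condition on field-valued objects -/
  w : ∀ {K : Type u} [Field K] [Algebra k K], F.Obj K → Prop
  w_iso : ∀ {K : Type u} [Field K] [Algebra k K] {L L' : F.Obj K}, F.Iso L L' → w L → w L'
  w_bc : ∀ {K K' : Type u} [Field K] [Field K'] [Algebra k K] [Algebra k K'] (φ : K →ₐ[k] K')
    {L : F.Obj K} {L' : F.Obj K'}, F.BC φ L L' → (w L ↔ w L')
  isOpen : ∀ {A : Type u} [CommRing A] [Algebra k A] (L : F.Obj A), IsOpen (fibreSet F w L)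
  classify : ∀ {A : Type u} [CommRing A] [Algebra k A] (L : F.Obj A),
    fibreSet F w L = Set.univ → ∃ (ψ : H →ₐ[k] A) (L' : F.Obj A), F.BC ψ U L' ∧ F.Iso L' L
  unique : ∀ {A : Type u} [CommRing A] [Algebra k A] (ψ ψ' : H →ₐ[k] A) {L₁ L₂ : F.Obj A},
    F.BC ψ U L₁ → F.BC ψ' U L₂ → F.Iso L₁ L₂ → fibreSet F w L₁ = Set.univ → ψ = ψ'

attribute [instance] FibrewiseChart.ringH FibrewiseChart.algH

namespace FibrewiseChart

variable {F : FamTheory k} (fc : FibrewiseChart F)

theorem mem_fibreSet_iff_forall {A : Type u} [CommRing A] [Algebra k A] (L : F.Obj A)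
    (p : PrimeSpectrum A) :
    p ∈ fibreSet F fc.w L ↔ ∀ Lp : F.Obj p.asIdeal.ResidueField, F.BC (resHom p) L Lp → fc.w Lp := by
  constructor
  · rintro ⟨Lp, h, hw⟩ Lp' h'
    exact fc.w_iso (F.bc_unique h h') hw
  · intro h
    obtain ⟨Lp, hLp⟩ := F.bc_exists (resHom p) L
    exact ⟨Lp, hLp, h Lp hLp⟩

theorem fibreSet_iso {A : Type u} [CommRing A] [Algebra k A] {L L' : F.Obj A}
    (e : F.Iso L L') : fibreSet F fc.w L = fibreSet F fc.w L' := by
  ext p
  constructor
  · rintro ⟨Lp, h, hw⟩
    exact ⟨Lp, F.bc_iso h e (F.iso_refl _), hw⟩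
  · rintro ⟨Lp, h, hw⟩
    exact ⟨Lp, F.bc_iso h (F.iso_symm e) (F.iso_refl _), hw⟩

theorem fibreSet_bc {A A' : Type u} [CommRing A] [CommRing A'] [Algebra k A] [Algebra k A']
    (φ : A →ₐ[k] A') {L : F.Obj A} {L' : F.Obj A'} (h : F.BC φ L L') :
    fibreSet F fc.w L' = PrimeSpectrum.comap φ.toRingHom ⁻¹' fibreSet F fc.w L := by
  ext p'
  simp only [Set.mem_preimage]
  -- a common refinement of the two fibres
  have key : ∀ (Lp : F.Obj (PrimeSpectrum.comap φ.toRingHom p').asIdeal.ResidueField)
      (Lp' : F.Obj p'.asIdeal.ResidueField),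
      F.BC (resHom (PrimeSpectrum.comap φ.toRingHom p')) L Lp → F.BC (resHom p') L' Lp' →
      (fc.w Lp ↔ fc.w Lp') := by
    intro Lp Lp' hp hp'
    obtain ⟨Lq, hq⟩ := F.bc_exists (resMap φ p') Lp
    have h1 : F.BC ((resMap φ p').comp (resHom (PrimeSpectrum.comap φ.toRingHom p'))) L Lq :=
      F.bc_comp hp hq
    rw [resMap_comp_resHom] at h1
    have h2 : F.BC ((resHom p').comp φ) L Lp' := F.bc_comp h hp'
    have e : F.Iso Lq Lp' := F.bc_unique h1 h2
    rw [fc.w_bc (resMap φ p') hq]
    exact ⟨fc.w_iso e, fc.w_iso (F.iso_symm e)⟩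
  constructor
  · rintro ⟨Lp', hp', hw⟩
    obtain ⟨Lp, hp⟩ := F.bc_exists (resHom (PrimeSpectrum.comap φ.toRingHom p')) L
    exact ⟨Lp, hp, (key Lp Lp' hp hp').2 hw⟩
  · rintro ⟨Lp, hp, hw⟩
    obtain ⟨Lp', hp'⟩ := F.bc_exists (resHom p') L'
    exact ⟨Lp', hp', (key Lp Lp' hp hp').1 hw⟩

/-- The chart with fibrewise locus. -/
def toAlgChart : AlgChart F where
  H := fc.H
  O := ⟨fibreSet F fc.w fc.U, fc.isOpen fc.U⟩
  U := fc.U
  locus L := ⟨fibreSet F fc.w L, fc.isOpen L⟩
  locus_iso e := TopologicalSpace.Opens.ext (fc.fibreSet_iso e)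
  locus_bc φ _ _ h := fc.fibreSet_bc φ h
  locus_univ := rfl
  classify L hL := fc.classify L (by
    have := congrArg (SetLike.coe) hL
    simpa using this)
  unique ψ ψ' _ _ h₁ h₂ e hL := fc.unique ψ ψ' h₁ h₂ e (by
    have := congrArg (SetLike.coe) hL
    simpa using this)

@[simp]
theorem toAlgChart_locus_coe {A : Type u} [CommRing A] [Algebra k A] (L : F.Obj A) :
    (fc.toAlgChart.locus L : Set (PrimeSpectrum A)) = fibreSet F fc.w L := rfl

end FibrewiseChart

/-- Covering criterion for a family of fibrewise charts: it suffices that every field-valued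
object satisfies one of the conditions. -/
theorem iSup_locus_eq_top_of_fields {F : FamTheory k} {ι : Type u}
    (fc : ι → FibrewiseChart F)
    (hcov : ∀ {K : Type u} [Field K] [Algebra k K] (L : F.Obj K), ∃ i, (fc i).w L)
    {A : Type u} [CommRing A] [Algebra k A] (L : F.Obj A) :
    ⨆ i, (fc i).toAlgChart.locus L = ⊤ := by
  apply TopologicalSpace.Opens.ext
  ext p
  simp only [TopologicalSpace.Opens.coe_iSup, Set.mem_iUnion, TopologicalSpace.Opens.coe_top,
    Set.mem_univ, iff_true]
  obtain ⟨Lp, hLp⟩ := F.bc_exists (resHom p) L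
  obtain ⟨i, hi⟩ := hcov Lp
  exact ⟨i, Lp, hLp, hi⟩

end Fermat.Agent.Jac.AlgChart76
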