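/-
Fermat/Agent/Jac/AlgChart76/Assemble.lean  (helper76)

JAC brick R2a: abstract assembly of an `AlgChartPackage F` from
* a family of essentially surjective translations `τ j : Translation F F'`,
* a family of fibrewise charts `fc v : FibrewiseChart F'`,
* the covering property ON FIELD-VALUED OBJECTS: every object `M` of `F` over a field `K` has a
  translate `(τ j).T M` satisfying the fibre condition of some chart `fc v`.
-/
import Mathlib
import Fermat.Agent.Jac.AlgChart76.Fibrewise
import Fermat.Agent.Jac.AlgChart76.Translate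

set_option autoImplicit false

universe u

namespace Fermat.Agent.Jac.AlgChart76

variable {k : Type u} [Field k]

/-- Assembly of a package from translations, fibrewise charts and a covering property on
field-valued objects. -/
noncomputable def AlgChartPackage.ofFibrewise {F F' : FamTheory k} {ιT ιV : Type u}
    (τ : ιT → Translation F F') (hτ : ∀ j, (τ j).EssSurj) (fc : ιV → FibrewiseChart F')
    (hcov : ∀ {K : Type u} [Field K] [Algebra k K] (M : F.Obj K),
      ∃ j v, (fc v).w ((τ j).T M)) : AlgChartPackage F :=
  AlgChartPackage.ofTranslations (ι := ιT × ιV) (fun i => τ i.1) (fun i => hτ i.1)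
    (fun i => (fc i.2).toAlgChart) (by
      intro A _ _ L
      apply TopologicalSpace.Opens.ext
      ext p
      simp only [TopologicalSpace.Opens.coe_iSup, Set.mem_iUnion, TopologicalSpace.Opens.coe_top,
        Set.mem_univ, iff_true]
      obtain ⟨Lp, hLp⟩ := F.bc_exists (resHom p) L
      obtain ⟨j, v, hw⟩ := hcov Lp
      exact ⟨(j, v), (τ j).T Lp, (τ j).bc hLp, hw⟩)

@[simp]
theorem AlgChartPackage.ofFibrewise_H {F F' : FamTheory k} {ιT ιV : Type u}
    (τ : ιT → Translation F F') (hτ : ∀ j, (τ j).EssSurj) (fc : ιV → FibrewiseChart F')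
    (hcov : ∀ {K : Type u} [Field K] [Algebra k K] (M : F.Obj K),
      ∃ j v, (fc v).w ((τ j).T M)) (i : ιT × ιV) :
    ((AlgChartPackage.ofFibrewise τ hτ fc hcov).chart i).H = (fc i.2).H := rfl

/-- Finite type of the coordinate rings of the assembled package. -/
theorem AlgChartPackage.ofFibrewise_finiteType {F F' : FamTheory k} {ιT ιV : Type u}
    (τ : ιT → Translation F F') (hτ : ∀ j, (τ j).EssSurj) (fc : ιV → FibrewiseChart F')
    (hcov : ∀ {K : Type u} [Field K] [Algebra k K] (M : F.Obj K),
      ∃ j v, (fc v).w ((τ j).T M))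
    (hft : ∀ v, Algebra.FiniteType k (fc v).H) (i : ιT × ιV) :
    Algebra.FiniteType k ((AlgChartPackage.ofFibrewise τ hτ fc hcov).chart i).H :=
  hft i.2

end Fermat.Agent.Jac.AlgChart76
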