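/-
Fermat/Agent/Jac/AlgChart76/LineFam.lean  (helper76)

JAC brick R2a: the concrete moduli problem of line two-chart modules over the tensor rings
`(A, A ⊗[k] B0, A ⊗[k] B1, A ⊗[k] B01)`, as a `FamTheory k`.

* `QCA k B0 B1 B01 A` : two-chart modules over the tensor rings (abstract version of helper87's
  `CurveCharts.QCA`).
* `BCRel φ L L'` : `L'` is a base change of `L` along `φ : A →ₐ[k] A'`
  (`Nonempty (JSmooth85Alg.LiftData L L')` for the algebra structures induced by `φ`).
* `Cut k B0 B1 B01` : a condition on two-chart modules over all `k`-algebras, stable under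
  isomorphism and base change.
* `lineFam S : FamTheory k` : line two-chart modules satisfying the cut `S`, up to `QC2.Iso`, with
  base change `BCRel`.
-/
import Mathlib
import Fermat.Agent.Jac.AlgChart76.Statement
import Fermat.Agent.Jac.BaseChange75.Rings
import Fermat.Agent.Jac.BaseChange75.Cube
import Fermat.Agent.Jac.LineOps39.Basic

set_option autoImplicit false
set_option linter.unusedSectionVars false
set_option linter.style.haveILetI false

universe u

open TensorProduct

namespace Fermat.Agent.Jac.AlgChart76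

open scoped Fermat.Agent.Jac.BaseChange75
open JSmooth85Alg BaseChange75 LineOps39

section Defs

variable (k : Type u) [Field k] (B0 B1 B01 : Type u) [CommRing B0] [CommRing B1] [CommRing B01]
  [Algebra k B0] [Algebra k B1] [Algebra k B01] [Algebra B0 B01] [Algebra B1 B01]
  [IsScalarTower k B0 B01] [IsScalarTower k B1 B01]

/-- Two-chart modules over the tensor rings `(A, A ⊗[k] B0, A ⊗[k] B1, A ⊗[k] B01)`. -/
abbrev QCA (A : Type u) [CommRing A] [Algebra k A] : Type (u + 1) :=
  QC2 A (A ⊗[k] B0) (A ⊗[k] B1) (A ⊗[k] B01)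

end Defs

section Towers

variable {k : Type u} [Field k]

/-- The scalar tower `k → A → A'` for the algebra structure of a `k`-algebra homomorphism. -/
theorem tower_of_algHom {A A' : Type u} [CommRing A] [CommRing A'] [Algebra k A] [Algebra k A']
    (φ : A →ₐ[k] A') : letI := φ.toRingHom.toAlgebra; IsScalarTower k A A' :=
  letI := φ.toRingHom.toAlgebra
  IsScalarTower.of_algebraMap_eq (fun x => (φ.commutes x).symm)

/-- Tensor rings along a tower `A → A' → A''`. -/
theorem towerLeft3 (k A A' A'' B : Type u) [CommRing k] [CommRing A] [CommRing A'] [CommRing A'']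
    [CommRing B] [Algebra k A] [Algebra k A'] [Algebra k A''] [Algebra k B]
    [Algebra A A'] [Algebra A' A''] [Algebra A A''] [IsScalarTower A A' A'']
    [IsScalarTower k A A'] [IsScalarTower k A' A''] [IsScalarTower k A A''] :
    IsScalarTower (A ⊗[k] B) (A' ⊗[k] B) (A'' ⊗[k] B) := by
  refine IsScalarTower.of_algebraMap_eq fun x => ?_
  induction x using TensorProduct.induction_on with
  | zero => simp
  | add x y hx hy => rw [map_add, map_add, map_add, hx, hy]
  | tmul a b =>
    rw [algebraMap_left_tmul, algebraMap_left_tmul, algebraMap_left_tmul,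
      ← IsScalarTower.algebraMap_apply]

end Towers

section Self

variable {A R0 R1 R01 : Type u} [CommRing A] [CommRing R0] [CommRing R1] [CommRing R01]
  [Algebra A R0] [Algebra A R1] [Algebra A R01] [Algebra R0 R01] [Algebra R1 R01]
  [IsScalarTower A R0 R01] [IsScalarTower A R1 R01]

/-- A two-chart module is its own base change along any cube of identity maps (the algebra
instances `Rᵢ → Rᵢ` need not be the canonical ones syntactically). -/
theorem nonempty_liftData_self (i0 : Algebra R0 R0) (i1 : Algebra R1 R1) (i01 : Algebra R01 R01)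
    (h0 : ∀ x, @algebraMap R0 R0 _ _ i0 x = x) (h1 : ∀ x, @algebraMap R1 R1 _ _ i1 x = x)
    (h01 : ∀ x, @algebraMap R01 R01 _ _ i01 x = x) (L : QC2 A R0 R1 R01) :
    letI := i0; letI := i1; letI := i01; Nonempty (LiftData L L) := by
  have e0 : i0 = Algebra.id R0 := Algebra.algebra_ext _ _ (fun r => h0 r)
  have e1 : i1 = Algebra.id R1 := Algebra.algebra_ext _ _ (fun r => h1 r)
  have e01 : i01 = Algebra.id R01 := Algebra.algebra_ext _ _ (fun r => h01 r)
  subst e0 e1 e01
  exact ⟨LiftData.refl L⟩

end Self

section Fam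

variable {k : Type u} [Field k] {B0 B1 B01 : Type u} [CommRing B0] [CommRing B1] [CommRing B01]
  [Algebra k B0] [Algebra k B1] [Algebra k B01] [Algebra B0 B01] [Algebra B1 B01]
  [IsScalarTower k B0 B01] [IsScalarTower k B1 B01]

/-- `L'` is a base change of `L` along the `k`-algebra homomorphism `φ`. -/
def BCRel {A A' : Type u} [CommRing A] [CommRing A'] [Algebra k A] [Algebra k A']
    (φ : A →ₐ[k] A') (L : QCA k B0 B1 B01 A) (L' : QCA k B0 B1 B01 A') : Prop :=
  letI := φ.toRingHom.toAlgebra
  haveI : IsScalarTower k A A' := tower_of_algHom φ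
  Nonempty (LiftData L L')

/-- Unbundling: if the algebra structure `A → A'` is given by `φ`, the relation `BCRel φ` is
`LiftData`. -/
theorem bcRel_iff {A A' : Type u} [CommRing A] [CommRing A'] [Algebra k A] [Algebra k A']
    (φ : A →ₐ[k] A') [iA : Algebra A A'] [tw : IsScalarTower k A A']
    (hφ : ∀ a, algebraMap A A' a = φ a)
    (L : QCA k B0 B1 B01 A) (L' : QCA k B0 B1 B01 A') :
    BCRel φ L L' ↔ Nonempty (LiftData L L') := by
  have e : φ.toRingHom.toAlgebra = iA := Algebra.algebra_ext _ _ (fun r => (hφ r).symm)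
  subst e
  exact Iff.rfl

/-- Unbundling along the structure map of `[Algebra A A']`. -/
theorem bcRel_toAlgHom {A A' : Type u} [CommRing A] [CommRing A'] [Algebra k A] [Algebra k A']
    [Algebra A A'] [IsScalarTower k A A'] (L : QCA k B0 B1 B01 A) (L' : QCA k B0 B1 B01 A') :
    BCRel (IsScalarTower.toAlgHom k A A') L L' ↔ Nonempty (LiftData L L') :=
  bcRel_iff _ (fun _ => rfl) L L'

variable (k B0 B1 B01) in
/-- A condition on two-chart modules over all `k`-algebras which is stable under isomorphism and
base change. -/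
structure Cut where
  /-- the condition -/
  P : ∀ {A : Type u} [CommRing A] [Algebra k A], QCA k B0 B1 B01 A → Prop
  iso : ∀ {A : Type u} [CommRing A] [Algebra k A] {L L' : QCA k B0 B1 B01 A},
    QC2.Iso L L' → P L → P L'
  bc : ∀ {A A' : Type u} [CommRing A] [CommRing A'] [Algebra k A] [Algebra k A'] [Algebra A A']
    [IsScalarTower k A A'] {L : QCA k B0 B1 B01 A} {L' : QCA k B0 B1 B01 A'},
    LiftData L L' → P L → P L'

/-- The moduli problem of line two-chart modules over the tensor rings satisfying the cut `S`. -/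
noncomputable def lineFam (S : Cut k B0 B1 B01) : FamTheory k where
  Obj A _ _ := {L : QCA k B0 B1 B01 A // L.IsLine ∧ S.P L}
  Iso L L' := Nonempty (QC2.Iso L.1 L'.1)
  iso_refl L := ⟨isoRefl L.1⟩
  iso_symm := fun ⟨e⟩ => ⟨isoSymm e⟩
  iso_trans := fun ⟨e⟩ ⟨f⟩ => ⟨isoTrans e f⟩
  BC φ L L' := BCRel φ L.1 L'.1
  bc_exists := by
    intro A A' _ _ _ _ φ L
    letI := φ.toRingHom.toAlgebra
    haveI : IsScalarTower k A A' := tower_of_algHom φ
    have h : LiftData L.1 (bcCube A' (square_comm k A A' B0 B01) (square_comm k A A' B1 B01) L.1) :=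
      liftData_bcCube (square_comm k A A' B0 B01) (square_comm k A A' B1 B01) L.1
    exact ⟨⟨_, LiftData.isLine h L.2.1, S.bc h L.2.2⟩, ⟨h⟩⟩
  bc_unique := by
    intro A A' _ _ _ _ φ L L₁ L₂ h₁ h₂
    letI := φ.toRingHom.toAlgebra
    haveI : IsScalarTower k A A' := tower_of_algHom φ
    obtain ⟨h₁⟩ := h₁
    obtain ⟨h₂⟩ := h₂
    exact ⟨LiftData.iso h₁ h₂⟩
  bc_iso := by
    intro A A' _ _ _ _ φ L M L' M' h e e'
    letI := φ.toRingHom.toAlgebra
    haveI : IsScalarTower k A A' := tower_of_algHom φ
    obtain ⟨h⟩ := h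
    obtain ⟨e⟩ := e
    obtain ⟨e'⟩ := e'
    exact ⟨LiftData.ofIso (LiftData.congrIso h e) e'⟩
  bc_id := by
    intro A _ _ L
    letI iA : Algebra A A := (AlgHom.id k A).toRingHom.toAlgebra
    haveI : IsScalarTower k A A := tower_of_algHom (AlgHom.id k A)
    refine nonempty_liftData_self (algLeft k A A B0) (algLeft k A A B1) (algLeft k A A B01)
      ?_ ?_ ?_ L.1
    all_goals
      intro x
      induction x using TensorProduct.induction_on with
      | zero => simp
      | add x y hx hy => rw [map_add, hx, hy]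
      | tmul a b => rw [algebraMap_left_tmul]; rfl
  bc_comp := by
    intro A A' A'' _ _ _ _ _ _ φ φ' L L' L'' h h'
    letI i1 : Algebra A A' := φ.toRingHom.toAlgebra
    haveI : IsScalarTower k A A' := tower_of_algHom φ
    letI i2 : Algebra A' A'' := φ'.toRingHom.toAlgebra
    haveI : IsScalarTower k A' A'' := tower_of_algHom φ'
    letI i3 : Algebra A A'' := (φ'.comp φ).toRingHom.toAlgebra
    haveI : IsScalarTower k A A'' := tower_of_algHom (φ'.comp φ)
    haveI : IsScalarTower A A' A'' := IsScalarTower.of_algebraMap_eq (fun x => rfl)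
    haveI := towerLeft3 k A A' A'' B0
    haveI := towerLeft3 k A A' A'' B1
    haveI := towerLeft3 k A A' A'' B01
    obtain ⟨h⟩ := h
    obtain ⟨h'⟩ := h'
    exact ⟨LiftData.trans h h'⟩

end Fam

end Fermat.Agent.Jac.AlgChart76
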