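/-
Fermat/Agent/Jac/AlgChart76/StdCut.lean  (helper76)

JAC brick R2a: the standard cut "rigidifiable at the base point `P0` and of fibrewise Euler
characteristic `χ0`" on two-chart modules over the tensor rings, and the corresponding moduli
problem `stdFam P0 χ0 : FamTheory k`.

`Rigidifiable P0 L` is verbatim helper87's `CurveCharts.Rigidifiable` (with `cc.P0` replaced by
an arbitrary `k`-point `P0 : B1 →ₐ[k] k`).
-/
import Mathlib
import Fermat.Agent.Jac.AlgChart76.LineFam
import Fermat.Agent.Jac.AlgChart76.Points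
import Fermat.Agent.Jac.ChiBC36

set_option autoImplicit false
set_option linter.unusedSectionVars false
set_option linter.style.haveILetI false

universe u

open TensorProduct

namespace Fermat.Agent.Jac.AlgChart76

open scoped Fermat.Agent.Jac.BaseChange75
open JSmooth85Alg BaseChange75 LineOps39

variable {k : Type u} [Field k] {B0 B1 B01 : Type u} [CommRing B0] [CommRing B1] [CommRing B01]
  [Algebra k B0] [Algebra k B1] [Algebra k B01] [Algebra B0 B01] [Algebra B1 B01]
  [IsScalarTower k B0 B01] [IsScalarTower k B1 B01]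

/-- The two-chart module `L` is rigidifiable at the `A`-point induced by the `k`-point `P0` of
chart 1: its fibre there is free of rank one over `A`. -/
def Rigidifiable (P0 : B1 →ₐ[k] k) {A : Type u} [CommRing A] [Algebra k A]
    (L : QCA k B0 B1 B01 A) : Prop :=
  RigidMod P0 A L.N1

theorem Rigidifiable.iso {P0 : B1 →ₐ[k] k} {A : Type u} [CommRing A] [Algebra k A]
    {L L' : QCA k B0 B1 B01 A} (e : QC2.Iso L L') (h : Rigidifiable P0 L) :
    Rigidifiable P0 L' :=
  RigidMod.congr e.e1 h

theorem Rigidifiable.liftData {P0 : B1 →ₐ[k] k} {A A' : Type u} [CommRing A] [CommRing A']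
    [Algebra k A] [Algebra k A'] [Algebra A A'] [IsScalarTower k A A']
    {L : QCA k B0 B1 B01 A} {L' : QCA k B0 B1 B01 A'} (h : LiftData L L')
    (hL : Rigidifiable P0 L) : Rigidifiable P0 L' :=
  RigidMod.baseChange h.e1 hL

/-- The standard cut: rigidifiable at `P0`, fibrewise Euler characteristic `χ0`. -/
def stdCut (P0 : B1 →ₐ[k] k) (χ0 : ℤ) : Cut k B0 B1 B01 where
  P L := Rigidifiable P0 L ∧ ∀ p, L.chi p = χ0
  iso e h := ⟨h.1.iso e, fun p => by rw [← ChiBC36.chi_iso e]; exact h.2 p⟩
  bc h hL := ⟨hL.1.liftData h, fun p' => by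
    rw [ChiBC36.chi_liftData_tensor _ h p']; exact hL.2 _⟩

/-- The moduli problem of line two-chart modules over the tensor rings which are rigidifiable at
`P0` and of fibrewise Euler characteristic `χ0`. -/
noncomputable def stdFam (P0 : B1 →ₐ[k] k) (χ0 : ℤ) : FamTheory k :=
  lineFam (stdCut (B0 := B0) (B01 := B01) P0 χ0)

/-- Constructor for objects of `stdFam`. -/
def stdFam.mk {P0 : B1 →ₐ[k] k} {χ0 : ℤ} {A : Type u} [CommRing A] [Algebra k A]
    (L : QCA k B0 B1 B01 A) (hL : L.IsLine) (hr : Rigidifiable P0 L) (hχ : ∀ p, L.chi p = χ0) :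
    (stdFam (B0 := B0) (B01 := B01) P0 χ0).Obj A :=
  ⟨L, hL, hr, hχ⟩

end Fermat.Agent.Jac.AlgChart76
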