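/-
Fermat/Agent/Jac/AlgChart76/HilbCore.lean  (helper76)

JAC brick R2a: DEFINITIONS for the core Hilbert chart on the moduli problem `stdFam P0 1`
(line bundles of fibrewise Euler characteristic `1`, i.e. of degree `g`).

Data: `c0 : TwoChart k B0 B1 B01`, the points at infinity `e : ιInf → (B1 →ₐ[k] k)` (the zeros of
`s`), and `v : Fin g → B0`.

* `infPair c0 e A i`   : the ideal pair of the `A`-point at infinity `Q_i` (closure of the `A`-point
                         of chart 1 induced by `e i`);
* `sectionIdeal M`     : the ideal of `R0` generated by all `φ(σ₀)`, `σ ∈ H⁰(M)`, `φ ∈ N0^∨`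
                         (when `H⁰(M) = A σ` this is `I0 = {φ(σ₀)}`, the ideal of the divisor of
                         zeros of `σ` on chart 0);
* `wCore c0 e v M`     : THE FIBRE CONDITION of the chart `v`, for `M` over a field `K`:
                         `H¹(M(-Q_i)) = 0` for all `i`, and `v` induces a basis of `R0 / I0(M)`,
                         i.e. `sectionIdeal M ∈ HilbV k v K`.
* `InfData c0 e`       : the hypotheses on the points at infinity.

The TARGET (assembled in `AlgChart76/HilbChart.lean` from blueprint 271, Claims 1-6) is a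
`FibrewiseChart (stdFam P0 1)` with `H = HilbChart87.HV k x v` and `w = wCore c0 e v`.
-/
import Mathlib
import Fermat.Agent.Jac.AlgChart76.StdCut
import Fermat.Agent.Jac.AlgChart76.Fibrewise
import Fermat.Agent.Jac.LineOps39.Twist
import Fermat.Agent.Jac.HilbChart87.Basic

set_option autoImplicit false
set_option linter.unusedSectionVars false
set_option linter.style.haveILetI false

universe u

open TensorProduct

namespace Fermat.Agent.Jac.AlgChart76

open scoped Fermat.Agent.Jac.BaseChange75
open JSmooth85Alg BaseChange75 LineOps39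

section Abstract

variable {A R0 R1 R01 : Type u} [CommRing A] [CommRing R0] [CommRing R1] [CommRing R01]
  [Algebra A R0] [Algebra A R1] [Algebra A R01] [Algebra R0 R01] [Algebra R1 R01]
  [IsScalarTower A R0 R01] [IsScalarTower A R1 R01]

/-- The ideal of `R0` generated by the values `φ(σ₀)` of the linear forms `φ` on `N0` at the
chart-0 components of the global sections `σ` of `M`. -/
def sectionIdeal (M : QC2 A R0 R1 R01) : Ideal R0 :=
  Ideal.span {x | ∃ σ : M.H0, ∃ φ : Module.Dual R0 M.N0, x = φ σ.1.1}

theorem mem_sectionIdeal_of (M : QC2 A R0 R1 R01) (σ : M.H0) (φ : Module.Dual R0 M.N0) :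
    φ σ.1.1 ∈ sectionIdeal M :=
  Ideal.subset_span ⟨σ, φ, rfl⟩

theorem sectionIdeal_le_iff (M : QC2 A R0 R1 R01) (J : Ideal R0) :
    sectionIdeal M ≤ J ↔ ∀ (σ : M.H0) (φ : Module.Dual R0 M.N0), φ σ.1.1 ∈ J := by
  unfold sectionIdeal
  rw [Ideal.span_le]
  constructor
  · intro h σ φ
    exact h ⟨σ, φ, rfl⟩
  · rintro h _ ⟨σ, φ, rfl⟩
    exact h σ φ

/-- The section ideal is invariant under isomorphism. -/
theorem sectionIdeal_iso {M M' : QC2 A R0 R1 R01} (e : QC2.Iso M M') :
    sectionIdeal M = sectionIdeal M' := by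
  apply le_antisymm
  · rw [sectionIdeal_le_iff]
    intro σ φ
    have h := mem_sectionIdeal_of M' (isoH0 e σ) (φ ∘ₗ e.e0.symm.toLinearMap)
    simpa [isoH0_coe] using h
  · rw [sectionIdeal_le_iff]
    intro σ φ
    have h := mem_sectionIdeal_of M (isoH0 (isoSymm e) σ) (φ ∘ₗ e.e0.toLinearMap)
    simpa [isoH0_coe, isoSymm] using h

/-- If `H⁰(M)` is generated by `σ`, the section ideal is the set of values `φ(σ₀)`. -/
theorem mem_sectionIdeal_iff_of_generator (M : QC2 A R0 R1 R01) (σ : M.H0)
    (hgen : ∀ τ : M.H0, ∃ a : A, τ = a • σ) (x : R0) :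
    x ∈ sectionIdeal M ↔ ∃ φ : Module.Dual R0 M.N0, x = φ σ.1.1 := by
  constructor
  · intro hx
    unfold sectionIdeal at hx
    induction hx using Submodule.span_induction with
    | mem x hx =>
      obtain ⟨τ, φ, rfl⟩ := hx
      obtain ⟨a, rfl⟩ := hgen τ
      refine ⟨a • φ, ?_⟩
      simp only [Submodule.coe_smul, Prod.smul_fst, LinearMap.smul_apply]
      rw [← algebraMap_smul R0 a σ.1.1, map_smul, smul_eq_mul, Algebra.smul_def]
    | zero => exact ⟨0, by simp⟩
    | add x y _ _ hx hy =>
      obtain ⟨φ, rfl⟩ := hx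
      obtain ⟨ψ, rfl⟩ := hy
      exact ⟨φ + ψ, by simp⟩
    | smul r x _ hx =>
      obtain ⟨φ, rfl⟩ := hx
      exact ⟨r • φ, by simp⟩
  · rintro ⟨φ, rfl⟩
    exact mem_sectionIdeal_of M σ φ

end Abstract

section Concrete

variable {k : Type u} [Field k] {B0 B1 B01 : Type u} [CommRing B0] [CommRing B1] [CommRing B01]
  [Algebra k B0] [Algebra k B1] [Algebra k B01] [Algebra B0 B01] [Algebra B1 B01]
  [IsScalarTower k B0 B01] [IsScalarTower k B1 B01]
  (c0 : TwoChart k B0 B1 B01) {ιInf : Type} (e : ιInf → (B1 →ₐ[k] k))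

/-- Hypotheses on the points at infinity: they are zeros of `s`, and a product of powers of
their maximal ideals is contained in `(s)` (so that every prime of `A ⊗ B1` containing `1 ⊗ s`
contains the ideal of one of the induced `A`-points). -/
structure InfData : Prop where
  s_mem : ∀ i, e i c0.s = 0
  exhaust : ∃ (l : List ιInf), (l.map (fun i => RingHom.ker (e i))).prod ≤ Ideal.span {c0.s}

/-- The ideal pair of the `A`-point at infinity `Q_i`. -/
noncomputable def infPair (A : Type u) [CommRing A] [Algebra k A] (i : ιInf) :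
    IdealPair (A ⊗[k] B0) (A ⊗[k] B1) (A ⊗[k] B01) :=
  IdealPair.ofChart1 (c0.baseChange A) (ptIdeal (e i) A)

/-- `H¹(M(-Q_i)) = 0` for all points at infinity `Q_i`. -/
def H1Vanish {A : Type u} [CommRing A] [Algebra k A] (M : QCA k B0 B1 B01 A) : Prop :=
  ∀ i, Subsingleton (downTwist (c0.baseChange A) M (infPair c0 e A i)).H1

/-- **The fibre condition of the Hilbert chart `v`** for a two-chart module over the tensor
rings: `H¹(M(-Q_i)) = 0` for all `i` and `v` induces a basis of `R0 / I0(M)`. (Used for `A = K`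
a field; the same definition over any `A` is the condition "`M` lies in the chart".) -/
def wCore {g : ℕ} (v : Fin g → B0) {A : Type u} [CommRing A] [Algebra k A]
    (M : QCA k B0 B1 B01 A) : Prop :=
  H1Vanish c0 e M ∧ sectionIdeal M ∈ HilbChart87.HilbV k v A

end Concrete

end Fermat.Agent.Jac.AlgChart76
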