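/-
Fermat/Agent/Jac/AlgChart76/InfTwist.lean  (helper76)

JAC brick R2a: down-twists at the points at infinity commute with arbitrary base change.

For the tensor rings, `h : LiftData M M'` along `A → A'` and `M` a vector bundle:
* `infPair_I0`        : the chart-0 ideal of a point at infinity is the unit ideal;
* `liftDataInfTwist`  : `LiftData (M(-Q_i)) (M'(-Q_i))` (no flatness of `A → A'` needed);
* `H1Vanish.liftData` : `H1Vanish M → H1Vanish M'`;
* `h1Vanish_iff_fibres` : `H1Vanish M` iff `H1Vanish` holds for (any choice of) all fibres;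
* `H1Vanish.iso`.
-/
import Mathlib
import Fermat.Agent.Jac.AlgChart76.HilbCore
import Fermat.Agent.Jac.LineOps39.BCOps
import Fermat.Agent.Jac.LineOps39.OverLine
import Fermat.Agent.Jac.Cover12.H1Locus
import Fermat.Agent.Jac.Cover12.ChiLift
import Fermat.Agent.Jac.P1CohH1

set_option autoImplicit false
set_option linter.unusedSectionVars false
set_option linter.style.haveILetI false

universe u

open TensorProduct

namespace Fermat.Agent.Jac.AlgChart76

open scoped Fermat.Agent.Jac.BaseChange75
open JSmooth85Alg BaseChange75 LineOps39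

variable {k : Type u} [Field k] {B0 B1 B01 : Type u} [CommRing B0] [CommRing B1] [CommRing B01]
  [Algebra k B0] [Algebra k B1] [Algebra k B01] [Algebra B0 B01] [Algebra B1 B01]
  [IsScalarTower k B0 B01] [IsScalarTower k B1 B01]
  (c0 : TwoChart k B0 B1 B01) {ιInf : Type} (e : ιInf → (B1 →ₐ[k] k))

section Ideals

variable (A : Type u) [CommRing A] [Algebra k A]

/-- The extension to the overlap of the ideal of a point at infinity is the unit ideal. -/
theorem map_ptIdeal_inf_eq_top (i : ιInf) (hs : e i c0.s = 0) :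
    (ptIdeal (e i) A).map (algebraMap (A ⊗[k] B1) (A ⊗[k] B01)) = ⊤ := by
  have h1 : (c0.baseChange A).s ∈ ptIdeal (e i) A := one_tmul_mem_ptIdeal (e i) A hs
  have h2 : algebraMap (A ⊗[k] B1) (A ⊗[k] B01) (c0.baseChange A).s ∈
      (ptIdeal (e i) A).map (algebraMap (A ⊗[k] B1) (A ⊗[k] B01)) := Ideal.mem_map_of_mem _ h1
  have h3 : IsUnit (algebraMap (A ⊗[k] B1) (A ⊗[k] B01) (c0.baseChange A).s) :=
    IsUnit.of_mul_eq_one _ (by rw [mul_comm]; exact (c0.baseChange A).ts)
  exact Ideal.eq_top_of_isUnit_mem _ h2 h3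

/-- The chart-0 ideal of a point at infinity is the unit ideal. -/
theorem infPair_I0 (i : ιInf) (hs : e i c0.s = 0) : (infPair c0 e A i).I0 = ⊤ := by
  show ((ptIdeal (e i) A).map (algebraMap (A ⊗[k] B1) (A ⊗[k] B01))).comap
    (algebraMap (A ⊗[k] B0) (A ⊗[k] B01)) = ⊤
  rw [map_ptIdeal_inf_eq_top c0 e A i hs, Ideal.comap_top]

theorem infPair_I1 (i : ιInf) : (infPair c0 e A i).I1 = ptIdeal (e i) A := rfl

/-- The quotient by the ideal of an `A`-point is `A`. -/
noncomputable def quotPtIdealEquiv {B : Type u} [CommRing B] [Algebra k B] (q : B →ₐ[k] k) :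
    ((A ⊗[k] B) ⧸ ptIdeal q A) ≃ₐ[A] A :=
  Ideal.quotientKerAlgEquivOfSurjective (evalA_surjective q A)

theorem flat_quot_ptIdeal {B : Type u} [CommRing B] [Algebra k B] (q : B →ₐ[k] k) :
    Module.Flat A ((A ⊗[k] B) ⧸ ptIdeal q A) :=
  Module.Flat.of_linearEquiv (quotPtIdealEquiv A q).toLinearEquiv

theorem flat_quot_infPair_I0 (i : ιInf) (hs : e i c0.s = 0) :
    Module.Flat A ((A ⊗[k] B0) ⧸ (infPair c0 e A i).I0) := by
  rw [infPair_I0 c0 e A i hs]
  haveI : Subsingleton ((A ⊗[k] B0) ⧸ (⊤ : Ideal (A ⊗[k] B0))) :=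
    Ideal.Quotient.subsingleton_iff.2 rfl
  infer_instance

end Ideals

section BC

variable {A A' : Type u} [CommRing A] [CommRing A'] [Algebra k A] [Algebra k A'] [Algebra A A']
  [IsScalarTower k A A']

/-- The ideal pair of a point at infinity commutes with base change. -/
theorem infPair_isBC (i : ιInf) (hs : e i c0.s = 0) :
    (infPair c0 e A i).IsBC (infPair c0 e A' i) := by
  have h := IdealPair.isBC_ofChart1 (square_comm k A A' B0 B01) (square_comm k A A' B1 B01)
    (c0.baseChange A) (c0.baseChange A') (algebraMap_baseChange_t c0 A A') (ptIdeal (e i) A) 0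
    (by
      have : (IdealPair.ofChart1 (c0.baseChange A) (ptIdeal (e i) A)).I0 = ⊤ :=
        infPair_I0 c0 e A i hs
      rw [this]
      trivial)
  rw [ptIdeal_map_left] at h
  exact h

/-- Down-twists at the points at infinity commute with arbitrary base change. -/
noncomputable def liftDataInfTwist (i : ιInf) (hs : e i c0.s = 0)
    {M : QCA k B0 B1 B01 A} {M' : QCA k B0 B1 B01 A'} (h : LiftData M M') (hM : M.IsVB) :
    LiftData (downTwist (c0.baseChange A) M (infPair c0 e A i))
      (downTwist (c0.baseChange A') M' (infPair c0 e A' i)) :=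
  have := BaseChange75.towerLeft' k A A' B0
  have := BaseChange75.towerLeft' k A A' B1
  liftDataDownTwistOfPushout (square_comm k A A' B0 B01) (c0.baseChange A) (c0.baseChange A') h hM
    (infPair_isBC c0 e i hs) (flat_quot_infPair_I0 c0 e A i hs) (flat_quot_ptIdeal A (e i))

end BC

end Fermat.Agent.Jac.AlgChart76
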