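/-
Fermat/Agent/Jac/AlgChart76/H1Vanish.lean  (helper76)

JAC brick R2a: the condition `H1Vanish c0 e M` (`H¹(M(-Q_i)) = 0` for all points at infinity
`Q_i`) under isomorphism, base change, passage to the fibres, and field extension.

Hypotheses: `hs : ∀ i, e i c0.s = 0`, `hinv : ∀ i, Module.Invertible B1 (ker (e i))`,
`hc0 : c0.FiniteProjOverLine`.
-/
import Mathlib
import Fermat.Agent.Jac.AlgChart76.InfTwist
import Fermat.Agent.Jac.Cover12.TwistComm
import Fermat.Agent.Jac.CurveBaseChange98Point
import Fermat.Agent.Jac.SmallClasses42Field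
import Fermat.Agent.Jac.P1CohChi.TwistFormula

set_option autoImplicit false
set_option linter.unusedSectionVars false
set_option linter.style.haveILetI false

universe u

open TensorProduct

namespace Fermat.Agent.Jac.AlgChart76

open scoped Fermat.Agent.Jac.BaseChange75
open JSmooth85Alg BaseChange75 LineOps39

variable {k : Type u} [Field k] {B0 B1 B01 : Type u} [CommRing B0] [CommRing B1] [CommRing B01]
  [Algebra k B0] [Algebra k B1] [Algebra k B01] [Algebra B0 B01] [Algebra B1 B01]
  [IsScalarTower k B0 B01] [IsScalarTower k B1 B01]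
  (c0 : TwoChart k B0 B1 B01) {ιInf : Type} (e : ιInf → (B1 →ₐ[k] k))

/-- The ideal of an `A`-point induced by a `k`-point with invertible maximal ideal is an
invertible module. -/
theorem invertible_ptIdeal {B : Type u} [CommRing B] [Algebra k B] (q : B →ₐ[k] k)
    (hq : Module.Invertible B (RingHom.ker q)) (A : Type u) [CommRing A] [Algebra k A] :
    Module.Invertible (A ⊗[k] B) (ptIdeal q A) := by
  rw [ptIdeal_eq_map]
  exact CurveBaseChange98Point.invertible_extIdeal A (RingHom.ker q)

section OverA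

variable {A : Type u} [CommRing A] [Algebra k A]

/-- `M(-Q_i)` is a vector bundle if `M` is. -/
theorem isVB_infTwist (hs : ∀ i, e i c0.s = 0)
    (hinv : ∀ i, Module.Invertible B1 (RingHom.ker (e i)))
    {M : QCA k B0 B1 B01 A} (hM : M.IsVB) (i : ιInf) :
    (downTwist (c0.baseChange A) M (infPair c0 e A i)).IsVB := by
  refine isVB_downTwist (c0.baseChange A) hM _ ?_ ?_
  · rw [infPair_I0 c0 e A i (hs i)]
    exact Module.Invertible.congr
      (Submodule.topEquiv : (⊤ : Ideal (A ⊗[k] B0)) ≃ₗ[A ⊗[k] B0] (A ⊗[k] B0)).symm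
  · exact invertible_ptIdeal (e i) (hinv i) A

theorem H1Vanish.iso {M M' : QCA k B0 B1 B01 A} (f : QC2.Iso M M') (h : H1Vanish c0 e M) :
    H1Vanish c0 e M' := fun i =>
  Cover12.TwistComm.subsingleton_H1_of_iso
    (Cover12.TwistComm.downTwistCongr (c0.baseChange A) f (infPair c0 e A i)) (h i)

end OverA

section BC

variable {A A' : Type u} [CommRing A] [CommRing A'] [Algebra k A] [Algebra k A'] [Algebra A A']
  [IsScalarTower k A A']

/-- `H1Vanish` is stable under arbitrary base change. -/
theorem H1Vanish.liftData (hs : ∀ i, e i c0.s = 0) {M : QCA k B0 B1 B01 A}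
    {M' : QCA k B0 B1 B01 A'} (h : LiftData M M') (hM : M.IsVB) (hv : H1Vanish c0 e M) :
    H1Vanish c0 e M' := fun i => by
  rw [Cover12.ChiLift.subsingleton_H1_lift_tensor_iff (liftDataInfTwist c0 e i (hs i) h hM)]
  exact P1CohH1.subsingleton_H1BC _ (hv i) A'

end BC

section Fibres

variable {A : Type u} [CommRing A] [Algebra k A]

/-- Fibrewise `H1Vanish` implies `H1Vanish`. -/
theorem h1Vanish_of_fibres (hc0 : c0.FiniteProjOverLine) (hs : ∀ i, e i c0.s = 0)
    (hinv : ∀ i, Module.Invertible B1 (RingHom.ker (e i)))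
    {M : QCA k B0 B1 B01 A} (hM : M.IsVB)
    (hfib : ∀ p : PrimeSpectrum A, ∃ Mp : QCA k B0 B1 B01 p.asIdeal.ResidueField,
      Nonempty (LiftData M Mp) ∧ H1Vanish c0 e Mp) : H1Vanish c0 e M := fun i => by
  have hF : (downTwist (c0.baseChange A) M (infPair c0 e A i)).FiniteOverLine (c0.baseChange A) :=
    finiteOverLine_of_isVB (c0.baseChange A) (hc0.baseChange A) (isVB_infTwist c0 e hs hinv hM i)
  rw [← Cover12.H1Locus.h1Locus_eq_univ_iff (c0.baseChange A) _ hF, Set.eq_univ_iff_forall]
  intro p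
  obtain ⟨Mp, ⟨h⟩, hv⟩ := hfib p
  rw [Cover12.H1Locus.mem_h1Locus,
    ← Cover12.ChiLift.subsingleton_H1_lift_tensor_iff (liftDataInfTwist c0 e i (hs i) h hM)]
  exact hv i

end Fibres

section FieldExt

variable {K K' : Type u} [Field K] [Field K'] [Algebra k K] [Algebra k K'] [Algebra K K']
  [IsScalarTower k K K']

/-- `H1Vanish` descends along field extensions. -/
theorem H1Vanish.of_liftData_field (hs : ∀ i, e i c0.s = 0) {M : QCA k B0 B1 B01 K}
    {M' : QCA k B0 B1 B01 K'} (h : LiftData M M') (hM : M.IsVB) (hv : H1Vanish c0 e M') :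
    H1Vanish c0 e M := fun i => by
  have h1 : Subsingleton
      ((downTwist (c0.baseChange K) M (infPair c0 e K i)).H1BC K') :=
    (Cover12.ChiLift.subsingleton_H1_lift_tensor_iff
      (liftDataInfTwist c0 e i (hs i) h hM)).1 (hv i)
  have h2 : Subsingleton ((downTwist (c0.baseChange K) M (infPair c0 e K i)).H1BC K) :=
    (SmallClasses42Field.subsingleton_H1BC_iff _ K K').1 h1
  exact (P1CohChi.H1BCSelfEquiv _).symm.toEquiv.subsingleton

end FieldExt

end Fermat.Agent.Jac.AlgChart76
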