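/-
Fermat/Agent/Jac/AlgChart76/SectionBC.lean  (helper76)

JAC brick R2a: for objects in the `W`-locus (line, rigidifiable, fibrewise Euler characteristic
`1`, `H1Vanish`), the section ideal commutes with ARBITRARY base change; membership of an ideal
with finite projective quotient in `HilbV` is checked on the fibres.
-/
import Mathlib
import Fermat.Agent.Jac.AlgChart76.H1Vanish
import Fermat.Agent.Jac.Chart43.Concrete
import Fermat.Agent.Jac.Chart43.LiftSection
import Fermat.Agent.Jac.Cover12.HilbOpen

set_option autoImplicit false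
set_option linter.unusedSectionVars false
set_option linter.style.haveILetI false

universe u

open TensorProduct

namespace Fermat.Agent.Jac.AlgChart76

open scoped Fermat.Agent.Jac.BaseChange75
open JSmooth85Alg BaseChange75 LineOps39

variable {k : Type u} [Field k] {B0 B1 B01 : Type u} [CommRing B0] [CommRing B1] [CommRing B01]
  [Algebra k B0] [Algebra k B1] [Algebra k B01] [Algebra B0 B01] [Algebra B1 B01]
  [IsScalarTower k B0 B01] [IsScalarTower k B1 B01]
  (c0 : TwoChart k B0 B1 B01) {ιInf : Type} (e : ιInf → (B1 →ₐ[k] k))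

section BC

variable {A A' : Type u} [CommRing A] [CommRing A'] [Algebra k A] [Algebra k A'] [Algebra A A']
  [IsScalarTower k A A']

/-- **The section ideal of a `W`-object commutes with arbitrary base change.** -/
theorem sectionIdeal_liftData (hc0 : c0.FiniteProjOverLine) (hInf : InfData c0 e) (i₀ : ιInf)
    (hB0 : ∀ (K : Type u) [Field K] [Algebra k K], IsDomain (K ⊗[k] B0))
    (hB1 : ∀ (K : Type u) [Field K] [Algebra k K], IsDomain (K ⊗[k] B1))
    {M : QCA k B0 B1 B01 A} {M' : QCA k B0 B1 B01 A'} (h : LiftData M M') (hM : M.IsLine)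
    (hr : Rigidifiable (e i₀) M) (hχ : ∀ p : PrimeSpectrum A, M.chi p = 1)
    (hv : H1Vanish c0 e M) :
    sectionIdeal M' = (sectionIdeal M).map (algebraMap (A ⊗[k] B0) (A' ⊗[k] B0)) := by
  obtain ⟨-, hgood, -, σ, -, hcd⟩ :=
    Chart43.stdFam_chart_divisor c0 e hc0 hInf i₀ hB0 hB1 M hM hr hχ hv
  have := hM.inv0
  have := BaseChange75.towerLeft' k A A' B0
  have := BaseChange75.towerLeft' k A A' B1
  have := BaseChange75.towerLeft' k A A' B01
  exact Chart43.span_dual_apply_liftData h σ hcd.gen (hgood.bij A').surjective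

/-- The base change map of `HilbChart87` is the `algLeft` algebra map. -/
theorem tmap_str_apply (z : A ⊗[k] B0) :
    HilbChart87.tmap (B := B0) (IsScalarTower.toAlgHom k A A') z =
      algebraMap (A ⊗[k] B0) (A' ⊗[k] B0) z := by
  induction z using TensorProduct.induction_on with
  | zero => simp
  | tmul a b =>
    rw [HilbChart87.tmap_tmul, BaseChange75.algebraMap_left_tmul]
    rfl
  | add x y hx hy => rw [map_add, map_add, hx, hy]

theorem map_tmap_str (I : Ideal (A ⊗[k] B0)) :
    Ideal.map (HilbChart87.tmap (B := B0) (IsScalarTower.toAlgHom k A A')) I =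
      I.map (algebraMap (A ⊗[k] B0) (A' ⊗[k] B0)) := by
  apply le_antisymm
  · rw [Ideal.map_le_iff_le_comap]
    intro z hz
    rw [Ideal.mem_comap, tmap_str_apply]
    exact Ideal.mem_map_of_mem _ hz
  · rw [Ideal.map_le_iff_le_comap]
    intro z hz
    rw [Ideal.mem_comap, ← tmap_str_apply]
    exact Ideal.mem_map_of_mem _ hz

/-- `HilbV` is stable under base change (in `algLeft` form). -/
theorem map_mem_hilbV {g : ℕ} {v : Fin g → B0} {I : Ideal (A ⊗[k] B0)}
    (hI : I ∈ HilbChart87.HilbV k v A) :
    I.map (algebraMap (A ⊗[k] B0) (A' ⊗[k] B0)) ∈ HilbChart87.HilbV k v A' := by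
  rw [← map_tmap_str]
  exact HilbChart87.HilbV.map_mem _ hI

end BC

section HVFibre

variable {g : ℕ} (v : Fin g → B0)

/-- **Membership in `HilbV` is checked on the fibres**, for ideals with finite projective
quotient. -/
theorem mem_hilbV_of_fibres {A : Type u} [CommRing A] [Algebra k A] (I : Ideal (A ⊗[k] B0))
    [Module.Finite A ((A ⊗[k] B0) ⧸ I)] [Module.Projective A ((A ⊗[k] B0) ⧸ I)]
    (h : ∀ p : PrimeSpectrum A,
      I.map (algebraMap (A ⊗[k] B0) (p.asIdeal.ResidueField ⊗[k] B0)) ∈
        HilbChart87.HilbV k v p.asIdeal.ResidueField) :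
    I ∈ HilbChart87.HilbV k v A := by
  have h1 : Ideal.map (HilbChart87.tmap (B := B0) (AlgHom.id k A)) I ∈ HilbChart87.HilbV k v A := by
    rw [Cover12.HilbOpen.map_mem_hilbV_iff_algHom v I (AlgHom.id k A)]
    intro p'
    have hp : p'.comap ((AlgHom.id k A : A →ₐ[k] A) : A →+* A) = p' := by
      apply PrimeSpectrum.ext
      ext x
      rfl
    rw [hp, Cover12.HilbOpen.mem_chartLocus,
      ← Cover12.HilbOpen.map_mem_hilbV_iff_bijective_baseChange, map_tmap_str]
    exact h p'
  have h2 : Ideal.map (HilbChart87.tmap (B := B0) (AlgHom.id k A)) I = I := by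
    have : (HilbChart87.tmap (B := B0) (AlgHom.id k A) : A ⊗[k] B0 →ₐ[k] A ⊗[k] B0) =
        AlgHom.id k _ := Algebra.TensorProduct.map_id
    rw [this]
    exact Ideal.map_id I
  rwa [h2] at h1

/-- **Membership in `HilbV` descends along field extensions.** -/
theorem mem_hilbV_iff_of_field {K K' : Type u} [Field K] [Field K'] [Algebra k K] [Algebra k K']
    [Algebra K K'] [IsScalarTower k K K'] (I : Ideal (K ⊗[k] B0)) :
    I.map (algebraMap (K ⊗[k] B0) (K' ⊗[k] B0)) ∈ HilbChart87.HilbV k v K' ↔
      I ∈ HilbChart87.HilbV k v K := by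
  rw [← map_tmap_str, Cover12.HilbOpen.map_mem_hilbV_iff_bijective_baseChange,
    Cover12.HilbOpen.mem_hilbV_iff]
  exact Module.FaithfullyFlat.lTensor_bijective_iff_bijective K K' (Cover12.HilbOpen.theta v I)

end HVFibre

end Fermat.Agent.Jac.AlgChart76
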