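/-
Fermat/Agent/Jac/AlgChart76/WCore.lean  (helper76)

JAC brick R2a: the fibre condition `wCore c0 e v` of the Hilbert chart `v`: invariance under
isomorphism and base change, descent along field extensions, and the fibre criterion
(`wCore_of_fibres`).  `ChartHyp` bundles the standing hypotheses on the curve.
-/
import Mathlib
import Fermat.Agent.Jac.AlgChart76.SectionBC

set_option autoImplicit false
set_option linter.unusedSectionVars false
set_option linter.style.haveILetI false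

universe u

open TensorProduct

namespace Fermat.Agent.Jac.AlgChart76

open scoped Fermat.Agent.Jac.BaseChange75
open JSmooth85Alg BaseChange75 LineOps39

variable {k : Type u} [Field k] {B0 B1 B01 : Type u} [CommRing B0] [CommRing B1] [CommRing B01]
  [Algebra k B0] [Algebra k B1] [Algebra k B01] [Algebra B0 B01] [Algebra B1 B01]
  [IsScalarTower k B0 B01] [IsScalarTower k B1 B01]
  (c0 : TwoChart k B0 B1 B01) {ιInf : Type} (e : ιInf → (B1 →ₐ[k] k))

/-- The standing hypotheses on the two-chart curve and its points at infinity. -/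
structure ChartHyp : Prop where
  hc0 : c0.FiniteProjOverLine
  hInf : InfData c0 e
  hinv : ∀ i, Module.Invertible B1 (RingHom.ker (e i))
  hB0 : ∀ (K : Type u) [Field K] [Algebra k K], IsDomain (K ⊗[k] B0)
  hB1 : ∀ (K : Type u) [Field K] [Algebra k K], IsDomain (K ⊗[k] B1)

variable {c0 e}

section Iso

variable {g : ℕ} {v : Fin g → B0} {A : Type u} [CommRing A] [Algebra k A]

theorem wCore.iso {M M' : QCA k B0 B1 B01 A} (f : QC2.Iso M M') (h : wCore c0 e v M) :
    wCore c0 e v M' :=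
  ⟨h.1.iso c0 e f, by rw [← sectionIdeal_iso f]; exact h.2⟩

end Iso

section BC

variable {g : ℕ} {v : Fin g → B0} {A A' : Type u} [CommRing A] [CommRing A'] [Algebra k A]
  [Algebra k A'] [Algebra A A'] [IsScalarTower k A A']

/-- `wCore` is stable under arbitrary base change. -/
theorem wCore.liftData (H : ChartHyp c0 e) (i₀ : ιInf) {M : QCA k B0 B1 B01 A}
    {M' : QCA k B0 B1 B01 A'} (h : LiftData M M') (hM : M.IsLine)
    (hr : Rigidifiable (e i₀) M) (hχ : ∀ p : PrimeSpectrum A, M.chi p = 1)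
    (hw : wCore c0 e v M) : wCore c0 e v M' := by
  refine ⟨hw.1.liftData c0 e H.hInf.s_mem h (isVB_of_isLine hM), ?_⟩
  rw [sectionIdeal_liftData c0 e H.hc0 H.hInf i₀ H.hB0 H.hB1 h hM hr hχ hw.1]
  exact map_mem_hilbV hw.2

end BC

section FieldExt

variable {g : ℕ} {v : Fin g → B0} {K K' : Type u} [Field K] [Field K'] [Algebra k K]
  [Algebra k K'] [Algebra K K'] [IsScalarTower k K K']

/-- `wCore` descends along field extensions. -/
theorem wCore.of_liftData_field (H : ChartHyp c0 e) (i₀ : ιInf) {M : QCA k B0 B1 B01 K}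
    {M' : QCA k B0 B1 B01 K'} (h : LiftData M M') (hM : M.IsLine)
    (hr : Rigidifiable (e i₀) M) (hχ : ∀ p : PrimeSpectrum K, M.chi p = 1)
    (hw : wCore c0 e v M') : wCore c0 e v M := by
  have hv : H1Vanish c0 e M :=
    H1Vanish.of_liftData_field c0 e H.hInf.s_mem h (isVB_of_isLine hM) hw.1
  refine ⟨hv, ?_⟩
  have h2 := hw.2
  rw [sectionIdeal_liftData c0 e H.hc0 H.hInf i₀ H.hB0 H.hB1 h hM hr hχ hv] at h2
  exact (mem_hilbV_iff_of_field v _).1 h2

theorem wCore_liftData_field_iff (H : ChartHyp c0 e) (i₀ : ιInf) {M : QCA k B0 B1 B01 K}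
    {M' : QCA k B0 B1 B01 K'} (h : LiftData M M') (hM : M.IsLine)
    (hr : Rigidifiable (e i₀) M) (hχ : ∀ p : PrimeSpectrum K, M.chi p = 1) :
    wCore c0 e v M ↔ wCore c0 e v M' :=
  ⟨wCore.liftData H i₀ h hM hr hχ, wCore.of_liftData_field H i₀ h hM hr hχ⟩

end FieldExt

section Fibres

variable {g : ℕ} {v : Fin g → B0} {A : Type u} [CommRing A] [Algebra k A]

/-- The conclusions of helper43's `stdFam_chart_divisor`, in terms of `sectionIdeal`. -/
theorem exists_divisor_of_h1Vanish (H : ChartHyp c0 e) (i₀ : ιInf) (M : QCA k B0 B1 B01 A)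
    (hM : M.IsLine) (hr : Rigidifiable (e i₀) M) (hχ : ∀ p : PrimeSpectrum A, M.chi p = 1)
    (hv : H1Vanish c0 e M)
    (hU : Module.Finite A (QC2.unit : QCA k B0 B1 B01 A).H1 ∧
      Module.Projective A (QC2.unit : QCA k B0 B1 B01 A).H1) :
    Module.Finite A ((A ⊗[k] B0) ⧸ sectionIdeal M) ∧
      Module.Projective A ((A ⊗[k] B0) ⧸ sectionIdeal M) ∧
      Module.Invertible (A ⊗[k] B0) (sectionIdeal M) ∧
      ∃ hVB : (ofIdeals (c0.baseChange A)
          (IdealPair.ofChart0 (c0.baseChange A) (sectionIdeal M))).IsVB,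
        Nonempty (QC2.Iso M (ofDivisor (c0.baseChange A)
          (IdealPair.ofChart0 (c0.baseChange A) (sectionIdeal M)) hVB)) := by
  obtain ⟨-, -, -, σ, -, hcd⟩ :=
    Chart43.stdFam_chart_divisor c0 e H.hc0 H.hInf i₀ H.hB0 H.hB1 M hM hr hχ hv
  have hI : sectionIdeal M = Chart43.contentIdeal (A ⊗[k] B0) σ.1.1 := hcd.sectionIdeal_eq
  rw [hI]
  exact ⟨hcd.finite, hcd.projective hU.1 hU.2, hcd.inv0, hcd.iso⟩

/-- **Fibre criterion for `wCore`.** -/
theorem wCore_of_fibres (H : ChartHyp c0 e) (i₀ : ιInf) (M : QCA k B0 B1 B01 A)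
    (hM : M.IsLine) (hr : Rigidifiable (e i₀) M) (hχ : ∀ p : PrimeSpectrum A, M.chi p = 1)
    (hU : Module.Finite A (QC2.unit : QCA k B0 B1 B01 A).H1 ∧
      Module.Projective A (QC2.unit : QCA k B0 B1 B01 A).H1)
    (hfib : ∀ p : PrimeSpectrum A, ∃ Mp : QCA k B0 B1 B01 p.asIdeal.ResidueField,
      Nonempty (LiftData M Mp) ∧ wCore c0 e v Mp) : wCore c0 e v M := by
  have hv : H1Vanish c0 e M :=
    h1Vanish_of_fibres c0 e H.hc0 H.hInf.s_mem H.hinv (isVB_of_isLine hM)
      (fun p => by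
        obtain ⟨Mp, h, hw⟩ := hfib p
        exact ⟨Mp, h, hw.1⟩)
  refine ⟨hv, ?_⟩
  obtain ⟨hfin, hproj, -, -⟩ := exists_divisor_of_h1Vanish H i₀ M hM hr hχ hv hU
  refine mem_hilbV_of_fibres v (sectionIdeal M) (fun p => ?_)
  obtain ⟨Mp, ⟨h⟩, hw⟩ := hfib p
  rw [← sectionIdeal_liftData c0 e H.hc0 H.hInf i₀ H.hB0 H.hB1 h hM hr hχ hv]
  exact hw.2

end Fibres

end Fermat.Agent.Jac.AlgChart76
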