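/-
Fermat/Agent/Jac/AlgChart76/HilbChart.lean  (helper76)

JAC brick R2a: the Hilbert charts `hilbChart v : FibrewiseChart (stdFam (e i₀) 1)` with
coordinate ring `HV k x v` (helper87), universal object `O(Z_univ)` (helper60), fibre condition
`wCore c0 e v`; openness from helper12, uniqueness from helper43, classification here.
-/
import Mathlib
import Fermat.Agent.Jac.AlgChart76.WCore
import Fermat.Agent.Jac.AlgChart76.Fibrewise
import Fermat.Agent.Jac.ConverseDiv60Hilb
import Fermat.Agent.Jac.Chart43.HilbCoreUnique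
import Fermat.Agent.Jac.Cover12.CoreOpen
import Fermat.Agent.Jac.UnitH1_98

set_option autoImplicit false
set_option linter.unusedSectionVars false
set_option linter.style.haveILetI false

universe u

open TensorProduct

namespace Fermat.Agent.Jac.AlgChart76

open scoped Fermat.Agent.Jac.BaseChange75
open JSmooth85Alg BaseChange75 LineOps39

variable {k : Type u} [Field k] [IsAlgClosed k] {B0 B1 B01 : Type u}
  [CommRing B0] [CommRing B1] [CommRing B01]
  [Algebra k B0] [Algebra k B1] [Algebra k B01] [Algebra B0 B01] [Algebra B1 B01]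
  [IsScalarTower k B0 B01] [IsScalarTower k B1 B01]
  [Algebra.FiniteType k B0] [IsDedekindDomain B0]
  {c0 : TwoChart k B0 B1 B01} {ιInf : Type} [Finite ιInf] {e : ιInf → (B1 →ₐ[k] k)}
  (H : ChartHyp c0 e) (i₀ : ιInf) (ht : Transcendental k c0.t)
  {g : ℕ} (hg : ChiBC36.chiUnit k B0 B1 B01 + g = 1)
  {n : ℕ} {x : Fin n → B0} (hx : Algebra.adjoin k (Set.range x) = ⊤) (v : Fin g → B0)

/-- Transport of an isomorphism with `O(Z(J))` along an equality of ideals. -/
theorem nonempty_iso_hilbBundle_of_eq {A : Type u} [CommRing A] [Algebra k A]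
    {M : QCA k B0 B1 B01 A} {I J : Ideal (A ⊗[k] B0)} (hI : I ∈ HilbChart87.HilbV k v A)
    (h : I = J)
    (hVB : (ofIdeals (c0.baseChange A) (IdealPair.ofChart0 (c0.baseChange A) J)).IsVB)
    (f : QC2.Iso M (ofDivisor (c0.baseChange A) (IdealPair.ofChart0 (c0.baseChange A) J) hVB)) :
    Nonempty (QC2.Iso M (ConverseDiv60Hilb.hilbBundle c0 H.hc0 ht v A I hI)) := by
  subst h
  exact ⟨f⟩

include H in
/-- The base change relation of `stdFam`, unbundled: `wCore` is invariant under field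
extension. -/
theorem wCore_bc_iff {K K' : Type u} [Field K] [Field K'] [Algebra k K] [Algebra k K']
    (φ : K →ₐ[k] K') {L : (stdFam (B0 := B0) (B01 := B01) (e i₀) 1).Obj K}
    {L' : (stdFam (B0 := B0) (B01 := B01) (e i₀) 1).Obj K'}
    (h : (stdFam (B0 := B0) (B01 := B01) (e i₀) 1).BC φ L L') :
    wCore c0 e v L.1 ↔ wCore c0 e v L'.1 := by
  letI := φ.toRingHom.toAlgebra
  haveI : IsScalarTower k K K' := tower_of_algHom φ
  obtain ⟨h⟩ := h
  exact wCore_liftData_field_iff H i₀ h L.2.1 L.2.2.1 L.2.2.2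

/-- **Classification**: an object all of whose fibres satisfy `wCore` is `O(Z(I0))` for
`I0 = sectionIdeal`, a point of the Hilbert chart. -/
theorem hilb_classify {A : Type u} [CommRing A] [Algebra k A]
    (L : (stdFam (B0 := B0) (B01 := B01) (e i₀) 1).Obj A)
    (hL : fibreSet (stdFam (B0 := B0) (B01 := B01) (e i₀) 1)
      (fun {K} [Field K] [Algebra k K] L => wCore c0 e v L.1) L = Set.univ) :
    ∃ (ψ : HilbChart87.HV k x v →ₐ[k] A)
      (L' : (stdFam (B0 := B0) (B01 := B01) (e i₀) 1).Obj A),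
      (stdFam (B0 := B0) (B01 := B01) (e i₀) 1).BC ψ
        (ConverseDiv60Hilb.univObj c0 H.hc0 ht v (e i₀) (H.hInf.s_mem i₀) hg x hx) L' ∧
      (stdFam (B0 := B0) (B01 := B01) (e i₀) 1).Iso L' L := by
  have hU := UnitH1_98.unit_H1_finite_free c0 H.hc0 A
  have hw : wCore c0 e v L.1 := by
    refine wCore_of_fibres H i₀ L.1 L.2.1 L.2.2.1 L.2.2.2 hU (fun p => ?_)
    have hp : p ∈ fibreSet (stdFam (B0 := B0) (B01 := B01) (e i₀) 1)
        (fun {K} [Field K] [Algebra k K] L => wCore c0 e v L.1) L := by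
      rw [hL]
      trivial
    obtain ⟨Lp, hbc, hwp⟩ := hp
    exact ⟨Lp.1, (bcRel_toAlgHom _ _).mp hbc, hwp⟩
  obtain ⟨-, -, -, hVB, ⟨f⟩⟩ :=
    exists_divisor_of_h1Vanish H i₀ L.1 L.2.1 L.2.2.1 L.2.2.2 hw.1 hU
  obtain ⟨ψ, hψ, -⟩ := HilbChart87.existsUnique_hom v hx hw.2
  have hm : Ideal.map (HilbChart87.tmap ψ) (HilbChart87.univIdeal v hx) ∈
      HilbChart87.HilbV k v A := HilbChart87.HilbV.map_mem ψ (HilbChart87.univIdeal_mem v hx)
  refine ⟨ψ, ConverseDiv60Hilb.hilbObj c0 H.hc0 ht v (e i₀) (H.hInf.s_mem i₀) hg A _ hm,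
    ConverseDiv60Hilb.bc_univObj c0 H.hc0 ht v (e i₀) (H.hInf.s_mem i₀) hg x hx ψ, ?_⟩
  obtain ⟨f'⟩ := nonempty_iso_hilbBundle_of_eq H ht v hm hψ hVB f
  exact ⟨isoSymm f'⟩

/-- The hypothesis `hU` of helper43's `hilbCore_unique` for helper60's universal object. -/
theorem hilb_univ_bc {A : Type u} [CommRing A] [Algebra k A]
    (ψ : HilbChart87.HV k x v →ₐ[k] A)
    (L : (stdFam (B0 := B0) (B01 := B01) (e i₀) 1).Obj A)
    (h : (stdFam (B0 := B0) (B01 := B01) (e i₀) 1).BC ψ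
      (ConverseDiv60Hilb.univObj c0 H.hc0 ht v (e i₀) (H.hInf.s_mem i₀) hg x hx) L) :
    ∃ (_ : Module.Invertible (A ⊗[k] B0)
        (Ideal.map (HilbChart87.tmap ψ) (HilbChart87.univIdeal v hx)))
      (hVB : (ofIdeals (c0.baseChange A) (IdealPair.ofChart0 (c0.baseChange A)
        (Ideal.map (HilbChart87.tmap ψ) (HilbChart87.univIdeal v hx)))).IsVB),
      Nonempty (QC2.Iso L.1 (ofDivisor (c0.baseChange A) (IdealPair.ofChart0 (c0.baseChange A)
        (Ideal.map (HilbChart87.tmap ψ) (HilbChart87.univIdeal v hx))) hVB)) := by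
  have hm : Ideal.map (HilbChart87.tmap ψ) (HilbChart87.univIdeal v hx) ∈
      HilbChart87.HilbV k v A := HilbChart87.HilbV.map_mem ψ (HilbChart87.univIdeal_mem v hx)
  have h2 := ConverseDiv60Hilb.bc_univObj c0 H.hc0 ht v (e i₀) (H.hInf.s_mem i₀) hg x hx ψ
  obtain ⟨f⟩ := (stdFam (B0 := B0) (B01 := B01) (e i₀) 1).bc_unique h h2
  haveI := ConverseDiv60Hilb.finite_of_mem v hm
  haveI := ConverseDiv60Hilb.invertible_of_mem c0 H.hc0 ht v hm
  exact ⟨inferInstance,
    isVB_of_isLine (ConverseDiv60Props.isLine_ofIdeals_ofChart0 (c0.baseChange A) _), ⟨f⟩⟩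

/-- **The Hilbert chart `v`** of the moduli problem `stdFam (e i₀) 1`. -/
noncomputable def hilbChart : FibrewiseChart (stdFam (B0 := B0) (B01 := B01) (e i₀) 1) where
  H := HilbChart87.HV k x v
  U := ConverseDiv60Hilb.univObj c0 H.hc0 ht v (e i₀) (H.hInf.s_mem i₀) hg x hx
  w := fun {K} [Field K] [Algebra k K] L => wCore c0 e v L.1
  w_iso := fun ⟨f⟩ h => h.iso f
  w_bc := fun φ _ _ h => wCore_bc_iff H i₀ v φ h
  isOpen := fun L =>
    Cover12.CoreOpen.isOpen_fibreSet_wCore c0 e v i₀ H.hc0 H.hInf H.hinv H.hB0 H.hB1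
      (fun A _ _ => UnitH1_98.unit_H1_finite_free c0 H.hc0 A)
      (fun φ _ _ h => wCore_bc_iff H i₀ v φ h) L
  classify := fun L hL => hilb_classify H i₀ ht hg hx v L hL
  unique := fun ψ ψ' _ _ h₁ h₂ f hL =>
    Chart43.hilbCore_unique c0 e hx v H.hc0 H.hInf i₀ H.hinv H.hB0 H.hB1 _
      (fun ψ L h => hilb_univ_bc H i₀ ht hg hx v ψ L h) ψ ψ' h₁ h₂ f hL

theorem hilbChart_H : (hilbChart H i₀ ht hg hx v).H = HilbChart87.HV k x v := rfl

theorem hilbChart_finiteType : Algebra.FiniteType k (hilbChart H i₀ ht hg hx v).H :=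
  HilbChart87.HV.finiteType k x v

theorem hilbChart_w {K : Type u} [Field K] [Algebra k K]
    (L : (stdFam (B0 := B0) (B01 := B01) (e i₀) 1).Obj K) :
    (hilbChart H i₀ ht hg hx v).w L ↔ wCore c0 e v L.1 := Iff.rfl

end Fermat.Agent.Jac.AlgChart76
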