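/-
Fermat/Agent/Jac/AlgChart76/Package.lean  (helper76)

JAC brick R2a, FINAL ASSEMBLY: the package of algebraic charts of the moduli problem
`stdFam (e i₀) χ(O)` from the Hilbert charts of `stdFam (e i₀) 1` (`hilbChart`), the translations
`L ↦ L(m·D∞ - q₁ - ⋯ - qₙ)` (helper14's `translStd`) and the covering property on field-valued
objects (`CovHyp`, helper12).
-/
import Mathlib
import Fermat.Agent.Jac.AlgChart76.HilbChart
import Fermat.Agent.Jac.AlgChart76.Assemble
import Fermat.Agent.Jac.Translate14.Bridge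

set_option autoImplicit false
set_option linter.unusedSectionVars false
set_option linter.style.haveILetI false

universe u

open TensorProduct

namespace Fermat.Agent.Jac.AlgChart76

open scoped Fermat.Agent.Jac.BaseChange75
open JSmooth85Alg BaseChange75 LineOps39

section Cast

variable {k : Type u} [Field k] {B0 B1 B01 : Type u} [CommRing B0] [CommRing B1] [CommRing B01]
  [Algebra k B0] [Algebra k B1] [Algebra k B01] [Algebra B0 B01] [Algebra B1 B01]
  [IsScalarTower k B0 B01] [IsScalarTower k B1 B01]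

/-- Change of the Euler characteristic of the target along an equality. -/
def Translation.castStd {F : FamTheory k} {P0 : B1 →ₐ[k] k} {a b : ℤ} (h : a = b)
    (τ : Translation F (stdFam (B0 := B0) (B01 := B01) P0 a)) :
    Translation F (stdFam (B0 := B0) (B01 := B01) P0 b) :=
  h ▸ τ

theorem Translation.castStd_essSurj {F : FamTheory k} {P0 : B1 →ₐ[k] k} {a b : ℤ} (h : a = b)
    (τ : Translation F (stdFam (B0 := B0) (B01 := B01) P0 a)) (hτ : τ.EssSurj) :
    (Translation.castStd h τ).EssSurj := by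
  subst h
  exact hτ

theorem Translation.castStd_T_coe {F : FamTheory k} {P0 : B1 →ₐ[k] k} {a b : ℤ} (h : a = b)
    (τ : Translation F (stdFam (B0 := B0) (B01 := B01) P0 a))
    {A : Type u} [CommRing A] [Algebra k A] (L : F.Obj A) :
    ((Translation.castStd h τ).T L).1 = (τ.T L).1 := by
  subst h
  rfl

end Cast

variable {k : Type u} [Field k] [IsAlgClosed k] {B0 B1 B01 : Type u}
  [CommRing B0] [CommRing B1] [CommRing B01]
  [Algebra k B0] [Algebra k B1] [Algebra k B01] [Algebra B0 B01] [Algebra B1 B01]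
  [IsScalarTower k B0 B01] [IsScalarTower k B1 B01]
  [Algebra.FiniteType k B0] [IsDedekindDomain B0]
  {c0 : TwoChart k B0 B1 B01} {ιInf : Type} [Finite ιInf] {e : ιInf → (B1 →ₐ[k] k)}

variable (c0 e) in
/-- **The covering hypothesis (COV)**: every line two-chart module over a field, rigidifiable at
`e i₀` and of Euler characteristic `χ(O)`, has a translate by `m·D∞ - q₁ - ⋯ - qₙ` of Euler
characteristic `1` lying in one of the Hilbert charts. -/
def CovHyp (i₀ : ιInf) (g : ℕ) : Prop :=
  ∀ (K : Type u) [Field K] [Algebra k K] (M : QCA k B0 B1 B01 K), M.IsLine →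
    Rigidifiable (e i₀) M → (∀ p, M.chi p = ChiBC36.chiUnit k B0 B1 B01) →
    ∃ (m : ℕ) (l : List (B0 →ₐ[k] k)) (v : Fin g → B0),
      ((m : ℤ) * (Translate14.degInf0 c0 : ℤ) + -(l.length : ℤ) = g) ∧
        wCore c0 e v (translQC c0 (m : ℤ) l M)

variable (H : ChartHyp c0 e) (i₀ : ιInf) (ht : Transcendental k c0.t)
  {g : ℕ} (hg : ChiBC36.chiUnit k B0 B1 B01 + g = 1)
  {n : ℕ} {x : Fin n → B0} (hx : Algebra.adjoin k (Set.range x) = ⊤)
  (hinv0 : ∀ q : B0 →ₐ[k] k, Module.Invertible B0 (RingHom.ker q))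

variable (c0) in
/-- The index type of the translations: `(m, [q₁, …, qₙ])` with `m·d - n = g`. -/
def TranslIdx (g : ℕ) : Type u :=
  {p : ℤ × List (B0 →ₐ[k] k) //
    p.1 * (Translate14.degInf0 c0 : ℤ) + -(p.2.length : ℤ) = g}

include hg in
theorem translIdx_chi (j : TranslIdx c0 g) :
    ChiBC36.chiUnit k B0 B1 B01 +
      (j.1.1 * (Translate14.degInf0 c0 : ℤ) + -(j.1.2.length : ℤ)) = 1 := by
  rw [j.2]
  exact hg

/-- The translation `stdFam (e i₀) χ(O) → stdFam (e i₀) 1` attached to an index. -/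
noncomputable def translTo1 (j : TranslIdx c0 g) :
    Translation (stdFam (B0 := B0) (B01 := B01) (e i₀) (ChiBC36.chiUnit k B0 B1 B01))
      (stdFam (B0 := B0) (B01 := B01) (e i₀) 1) :=
  Translation.castStd (translIdx_chi hg j)
    (Translate14.translStd c0 (e i₀) H.hc0 (H.hInf.s_mem i₀) hinv0 j.1.1 j.1.2
      (ChiBC36.chiUnit k B0 B1 B01))

theorem translTo1_essSurj (j : TranslIdx c0 g) : (translTo1 H i₀ hg hinv0 j).EssSurj :=
  Translation.castStd_essSurj _ _ (Translate14.translStd_essSurj c0 (e i₀) H.hc0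
    (H.hInf.s_mem i₀) hinv0 j.1.1 j.1.2 _)

theorem translTo1_T_coe (j : TranslIdx c0 g) {A : Type u} [CommRing A] [Algebra k A]
    (L : (stdFam (B0 := B0) (B01 := B01) (e i₀) (ChiBC36.chiUnit k B0 B1 B01)).Obj A) :
    ((translTo1 H i₀ hg hinv0 j).T L).1 = translQC c0 j.1.1 j.1.2 L.1 := by
  rw [translTo1, Translation.castStd_T_coe]
  exact Translate14.translStd_T_coe c0 (e i₀) H.hc0 (H.hInf.s_mem i₀) hinv0 j.1.1 j.1.2 _ L

/-- The covering property on field-valued objects, in the form needed by `ofFibrewise`. -/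
theorem hilb_cov (hcov : CovHyp c0 e i₀ g) {K : Type u} [Field K] [Algebra k K]
    (M : (stdFam (B0 := B0) (B01 := B01) (e i₀) (ChiBC36.chiUnit k B0 B1 B01)).Obj K) :
    ∃ (j : TranslIdx c0 g) (v : Fin g → B0),
      (hilbChart H i₀ ht hg hx v).w ((translTo1 H i₀ hg hinv0 j).T M) := by
  obtain ⟨m, l, v, hml, hw⟩ := hcov K M.1 M.2.1 M.2.2.1 M.2.2.2
  let j : TranslIdx c0 g := ⟨((m : ℤ), l), hml⟩
  refine ⟨j, v, ?_⟩
  have h := translTo1_T_coe H i₀ hg hinv0 j M
  show wCore c0 e v ((translTo1 H i₀ hg hinv0 j).T M).1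
  rw [h]
  exact hw

/-- **R2a: the package of algebraic charts** of `stdFam (e i₀) χ(O)`. -/
noncomputable def hilbPackage (hcov : CovHyp c0 e i₀ g) :
    AlgChartPackage (stdFam (B0 := B0) (B01 := B01) (e i₀) (ChiBC36.chiUnit k B0 B1 B01)) :=
  AlgChartPackage.ofFibrewise (ιT := TranslIdx c0 g) (ιV := Fin g → B0)
    (fun j => translTo1 H i₀ hg hinv0 j) (fun j => translTo1_essSurj H i₀ hg hinv0 j)
    (fun v => hilbChart H i₀ ht hg hx v)
    (fun M => hilb_cov H i₀ ht hg hx hinv0 hcov M)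

/-- The coordinate rings of the charts of the package are of finite type over `k`. -/
theorem hilbPackage_finiteType (hcov : CovHyp c0 e i₀ g)
    (i : (hilbPackage H i₀ ht hg hx hinv0 hcov).ι) :
    Algebra.FiniteType k ((hilbPackage H i₀ ht hg hx hinv0 hcov).chart i).H :=
  AlgChartPackage.ofFibrewise_finiteType (ιT := TranslIdx c0 g) (ιV := Fin g → B0)
    (fun j => translTo1 H i₀ hg hinv0 j) (fun j => translTo1_essSurj H i₀ hg hinv0 j)
    (fun v => hilbChart H i₀ ht hg hx v)
    (fun M => hilb_cov H i₀ ht hg hx hinv0 hcov M)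
    (fun v => hilbChart_finiteType H i₀ ht hg hx v) i

end Fermat.Agent.Jac.AlgChart76
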