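/-
Fermat/Agent/Jac/AlgChart76/Translate.lean  (helper76)

JAC brick R2a: identity and composition of translations of moduli problems, and the package
obtained by transporting a family of charts along a family of translations.
-/
import Mathlib
import Fermat.Agent.Jac.AlgChart76.Statement

set_option autoImplicit false

universe u

namespace Fermat.Agent.Jac.AlgChart76

variable {k : Type u} [Field k]

/-- The identity translation. -/
def Translation.refl (F : FamTheory k) : Translation F F where
  T L := L
  iso h := h
  iso_inv h := h
  bc h := h

/-- Composition of translations. -/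
def Translation.comp {F F' F'' : FamTheory k} (τ' : Translation F' F'') (τ : Translation F F') :
    Translation F F'' where
  T L := τ'.T (τ.T L)
  iso h := τ'.iso (τ.iso h)
  iso_inv h := τ.iso_inv (τ'.iso_inv h)
  bc h := τ'.bc (τ.bc h)

/-- A translation is essentially surjective if every object of the target is isomorphic to a
translate. -/
def Translation.EssSurj {F F' : FamTheory k} (τ : Translation F F') : Prop :=
  ∀ {A : Type u} [CommRing A] [Algebra k A] (M : F'.Obj A), ∃ L : F.Obj A, F'.Iso (τ.T L) M

theorem Translation.EssSurj.comp {F F' F'' : FamTheory k} {τ' : Translation F' F''}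
    {τ : Translation F F'} (h' : τ'.EssSurj) (h : τ.EssSurj) : (τ'.comp τ).EssSurj := by
  intro A _ _ M
  obtain ⟨L', hL'⟩ := h' M
  obtain ⟨L, hL⟩ := h L'
  exact ⟨L, F''.iso_trans (τ'.iso hL) hL'⟩

/-- Transport of a chart along an essentially surjective translation (the preimage of the
universal object is chosen). -/
noncomputable def AlgChart.transport' {F F' : FamTheory k} (τ : Translation F F')
    (hτ : τ.EssSurj) (ch : AlgChart F') : AlgChart F :=
  ch.transport τ (hτ ch.U).choose (hτ ch.U).choose_spec

@[simp]
theorem AlgChart.transport'_H {F F' : FamTheory k} (τ : Translation F F')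
    (hτ : τ.EssSurj) (ch : AlgChart F') : (ch.transport' τ hτ).H = ch.H := rfl

@[simp]
theorem AlgChart.transport'_locus {F F' : FamTheory k} (τ : Translation F F')
    (hτ : τ.EssSurj) (ch : AlgChart F') {A : Type u} [CommRing A] [Algebra k A] (L : F.Obj A) :
    (ch.transport' τ hτ).locus L = ch.locus (τ.T L) := rfl

/-- The package obtained from a family of charts of `F'` transported along a family of
translations `F → F'`, provided the transported loci cover. -/
noncomputable def AlgChartPackage.ofTranslations {F F' : FamTheory k} {ι : Type u}
    (τ : ι → Translation F F') (hτ : ∀ i, (τ i).EssSurj) (ch : ι → AlgChart F')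
    (hcov : ∀ {A : Type u} [CommRing A] [Algebra k A] (L : F.Obj A),
      ⨆ i, (ch i).locus ((τ i).T L) = ⊤) : AlgChartPackage F where
  ι := ι
  chart i := (ch i).transport' (τ i) (hτ i)
  cover L := hcov L

end Fermat.Agent.Jac.AlgChart76
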