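/-
Fermat/Agent/Jac/AlgChart76/QTr.lean  (helper76)

JAC brick R2a: translations at the level of two-chart modules over the tensor rings.

A `QTr` is an operation `T` on two-chart modules over `(A, A ⊗ B0, A ⊗ B1, A ⊗ B01)` for all
`k`-algebras `A` (e.g. `L ↦ L.twist c m`, `L ↦ L(-q)` for a `k`-point `q`) which on line bundles
preserves lines, is compatible with isomorphisms (in both directions) and with base change, and
is essentially surjective.  `QTr`s compose without any index bookkeeping; a `QTr` which transports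
the cut `S` to the cut `S'` induces a `Translation (lineFam S) (lineFam S')`
(`QTr.toTranslation`), essentially surjective (`QTr.toTranslation_essSurj`).

For the standard cuts: `QTr.Rigid P0 τ` (rigidifiability at `P0` is preserved and reflected) and
`QTr.ChiShift τ δ` (`χ` is shifted by `δ`) give `τ.toStd : Translation (stdFam P0 χ0)
(stdFam P0 (χ0 + δ))`.
-/
import Mathlib
import Fermat.Agent.Jac.AlgChart76.StdCut
import Fermat.Agent.Jac.AlgChart76.Translate

set_option autoImplicit false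
set_option linter.unusedSectionVars false
set_option linter.style.haveILetI false

universe u

open TensorProduct

namespace Fermat.Agent.Jac.AlgChart76

open scoped Fermat.Agent.Jac.BaseChange75
open JSmooth85Alg BaseChange75 LineOps39

variable (k : Type u) [Field k] (B0 B1 B01 : Type u) [CommRing B0] [CommRing B1] [CommRing B01]
  [Algebra k B0] [Algebra k B1] [Algebra k B01] [Algebra B0 B01] [Algebra B1 B01]
  [IsScalarTower k B0 B01] [IsScalarTower k B1 B01]

/-- A translation at the level of two-chart modules over the tensor rings. -/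
structure QTr where
  /-- the operation -/
  T : ∀ {A : Type u} [CommRing A] [Algebra k A], QCA k B0 B1 B01 A → QCA k B0 B1 B01 A
  isLine : ∀ {A : Type u} [CommRing A] [Algebra k A] {L : QCA k B0 B1 B01 A},
    L.IsLine → (T L).IsLine
  iso : ∀ {A : Type u} [CommRing A] [Algebra k A] {L L' : QCA k B0 B1 B01 A},
    L.IsLine → L'.IsLine → Nonempty (QC2.Iso L L') → Nonempty (QC2.Iso (T L) (T L'))
  iso_inv : ∀ {A : Type u} [CommRing A] [Algebra k A] {L L' : QCA k B0 B1 B01 A},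
    L.IsLine → L'.IsLine → Nonempty (QC2.Iso (T L) (T L')) → Nonempty (QC2.Iso L L')
  bc : ∀ {A A' : Type u} [CommRing A] [CommRing A'] [Algebra k A] [Algebra k A'] [Algebra A A']
    [IsScalarTower k A A'] {L : QCA k B0 B1 B01 A} {L' : QCA k B0 B1 B01 A'},
    L.IsLine → Nonempty (LiftData L L') → Nonempty (LiftData (T L) (T L'))
  ess : ∀ {A : Type u} [CommRing A] [Algebra k A] (M : QCA k B0 B1 B01 A), M.IsLine →
    ∃ L : QCA k B0 B1 B01 A, L.IsLine ∧ Nonempty (QC2.Iso (T L) M)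

variable {k B0 B1 B01}

namespace QTr

/-- The identity. -/
def refl : QTr k B0 B1 B01 where
  T L := L
  isLine h := h
  iso _ _ h := h
  iso_inv _ _ h := h
  bc _ h := h
  ess M hM := ⟨M, hM, ⟨isoRefl M⟩⟩

/-- Composition (`τ` first, then `τ'`). -/
def comp (τ' τ : QTr k B0 B1 B01) : QTr k B0 B1 B01 where
  T L := τ'.T (τ.T L)
  isLine h := τ'.isLine (τ.isLine h)
  iso hL hL' h := τ'.iso (τ.isLine hL) (τ.isLine hL') (τ.iso hL hL' h)
  iso_inv hL hL' h := τ.iso_inv hL hL' (τ'.iso_inv (τ.isLine hL) (τ.isLine hL') h)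
  bc hL h := τ'.bc (τ.isLine hL) (τ.bc hL h)
  ess M hM := by
    obtain ⟨L', hL', ⟨e'⟩⟩ := τ'.ess M hM
    obtain ⟨L, hL, e⟩ := τ.ess L' hL'
    obtain ⟨f⟩ := τ'.iso (τ.isLine hL) hL' e
    exact ⟨L, hL, ⟨isoTrans f e'⟩⟩

@[simp] theorem comp_T (τ' τ : QTr k B0 B1 B01) {A : Type u} [CommRing A] [Algebra k A]
    (L : QCA k B0 B1 B01 A) : (τ'.comp τ).T L = τ'.T (τ.T L) := rfl

/-- Composition of a list of translations (the head of the list is applied first). -/
def listComp : List (QTr k B0 B1 B01) → QTr k B0 B1 B01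
  | [] => refl
  | τ :: l => (listComp l).comp τ

/-- The induced translation of moduli problems, for cuts `S`, `S'` with `S.P L ↔ S'.P (T L)`. -/
def toTranslation (τ : QTr k B0 B1 B01) (S S' : Cut k B0 B1 B01)
    (h : ∀ {A : Type u} [CommRing A] [Algebra k A] (L : QCA k B0 B1 B01 A), L.IsLine →
      (S.P L ↔ S'.P (τ.T L))) : Translation (lineFam S) (lineFam S') where
  T L := ⟨τ.T L.1, τ.isLine L.2.1, (h L.1 L.2.1).1 L.2.2⟩
  iso {_ _ _ L L'} e := τ.iso L.2.1 L'.2.1 e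
  iso_inv {_ _ _ L L'} e := τ.iso_inv L.2.1 L'.2.1 e
  bc := by
    intro A A' _ _ _ _ φ L L' hb
    letI := φ.toRingHom.toAlgebra
    haveI : IsScalarTower k A A' := tower_of_algHom φ
    exact τ.bc L.2.1 hb

theorem toTranslation_essSurj (τ : QTr k B0 B1 B01) (S S' : Cut k B0 B1 B01)
    (h : ∀ {A : Type u} [CommRing A] [Algebra k A] (L : QCA k B0 B1 B01 A), L.IsLine →
      (S.P L ↔ S'.P (τ.T L))) : (τ.toTranslation S S' h).EssSurj := by
  intro A _ _ M
  obtain ⟨L, hL, ⟨e⟩⟩ := τ.ess M.1 M.2.1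
  have hP : S.P L := (h L hL).2 (S'.iso (isoSymm e) M.2.2)
  exact ⟨⟨L, hL, hP⟩, ⟨e⟩⟩

/-- `τ` preserves and reflects rigidifiability at `P0` (on line bundles). -/
def Rigid (P0 : B1 →ₐ[k] k) (τ : QTr k B0 B1 B01) : Prop :=
  ∀ (A : Type u) [CommRing A] [Algebra k A] (L : QCA k B0 B1 B01 A), L.IsLine →
    (Rigidifiable P0 L ↔ Rigidifiable P0 (τ.T L))

/-- `τ` shifts the fibrewise Euler characteristic by `δ` (on line bundles). -/
def ChiShift (τ : QTr k B0 B1 B01) (δ : ℤ) : Prop :=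
  ∀ (A : Type u) [CommRing A] [Algebra k A] (L : QCA k B0 B1 B01 A), L.IsLine →
    ∀ p : PrimeSpectrum A, (τ.T L).chi p = L.chi p + δ

theorem Rigid.refl (P0 : B1 →ₐ[k] k) : Rigid P0 (refl : QTr k B0 B1 B01) :=
  fun _ _ _ _ _ => Iff.rfl

theorem Rigid.comp {P0 : B1 →ₐ[k] k} {τ' τ : QTr k B0 B1 B01} (h' : Rigid P0 τ')
    (h : Rigid P0 τ) : Rigid P0 (τ'.comp τ) :=
  fun A _ _ L hL => (h A L hL).trans (h' A (τ.T L) (τ.isLine hL))

theorem ChiShift.refl : ChiShift (refl : QTr k B0 B1 B01) 0 :=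
  fun _ _ _ _ _ _ => (add_zero _).symm

theorem ChiShift.comp {τ' τ : QTr k B0 B1 B01} {δ' δ : ℤ} (h' : ChiShift τ' δ')
    (h : ChiShift τ δ) : ChiShift (τ'.comp τ) (δ + δ') :=
  fun A _ _ L hL p => by
    rw [comp_T, h' A (τ.T L) (τ.isLine hL) p, h A L hL p, add_assoc]

theorem std_iff (τ : QTr k B0 B1 B01) (P0 : B1 →ₐ[k] k) (hr : Rigid P0 τ) {δ : ℤ}
    (hχ : ChiShift τ δ) (χ0 : ℤ) {A : Type u} [CommRing A] [Algebra k A]
    (L : QCA k B0 B1 B01 A) (hL : L.IsLine) :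
    (stdCut P0 χ0).P L ↔ (stdCut P0 (χ0 + δ)).P (τ.T L) := by
  show (Rigidifiable P0 L ∧ ∀ p, L.chi p = χ0) ↔
    (Rigidifiable P0 (τ.T L) ∧ ∀ p, (τ.T L).chi p = χ0 + δ)
  constructor
  · rintro ⟨h1, h2⟩
    exact ⟨(hr A L hL).1 h1, fun p => by rw [hχ A L hL p, h2 p]⟩
  · rintro ⟨h1, h2⟩
    exact ⟨(hr A L hL).2 h1, fun p => by
      have := h2 p
      rw [hχ A L hL p] at this
      exact add_right_cancel this⟩

/-- The translation between standard moduli problems induced by a `QTr` which is compatible with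
rigidifiability and shifts `χ` by `δ`. -/
def toStd (τ : QTr k B0 B1 B01) (P0 : B1 →ₐ[k] k) (hr : Rigid P0 τ) {δ : ℤ} (hχ : ChiShift τ δ)
    (χ0 : ℤ) : Translation (stdFam (B0 := B0) (B01 := B01) P0 χ0)
      (stdFam (B0 := B0) (B01 := B01) P0 (χ0 + δ)) :=
  τ.toTranslation (stdCut P0 χ0) (stdCut P0 (χ0 + δ)) (fun L hL => τ.std_iff P0 hr hχ χ0 L hL)

theorem toStd_essSurj (τ : QTr k B0 B1 B01) (P0 : B1 →ₐ[k] k) (hr : Rigid P0 τ) {δ : ℤ}
    (hχ : ChiShift τ δ) (χ0 : ℤ) : (τ.toStd P0 hr hχ χ0).EssSurj :=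
  toTranslation_essSurj τ _ _ (fun L hL => τ.std_iff P0 hr hχ χ0 L hL)

@[simp] theorem toStd_T_coe (τ : QTr k B0 B1 B01) (P0 : B1 →ₐ[k] k) (hr : Rigid P0 τ) {δ : ℤ}
    (hχ : ChiShift τ δ) (χ0 : ℤ) {A : Type u} [CommRing A] [Algebra k A]
    (L : (stdFam (B0 := B0) (B01 := B01) P0 χ0).Obj A) :
    ((τ.toStd P0 hr hχ χ0).T L).1 = τ.T L.1 := rfl

end QTr

end Fermat.Agent.Jac.AlgChart76
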