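/-
Fermat/Agent/Jac/AlgChart76/Transl.lean  (helper76)

JAC brick R2a: the concrete translations `L ↦ L(m·D∞ - q₁ - ⋯ - qₙ)` of two-chart modules over
the tensor rings, for `m : ℤ` and a list of `k`-points `q_j : B0 →ₐ[k] k` of chart 0.

* `twistQC c0 m L  = L.twist (c0.baseChange A) m`;
* `pointQC c0 q L  = downTwist cA L (IdealPair.ofChart0 cA (ptIdeal q A))`;
* `translQC c0 m l L` : twist by `m`, then down-twist at the points of `l` (head first);
  `translQC_eq_downTwistList` identifies it with helper82's `downTwistList`.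
* `TranslInputs c0 P0 d` : the two elementary steps as `QTr`s with their effect on
  rigidifiability and on `χ` (twist: `+ m * d`; point: `- 1`) -- to be supplied;
* `TranslInputs.transl I m l : QTr` with `T = translQC c0 m l`, `Rigid P0`,
  `ChiShift (m * d - l.length)`.
-/
import Mathlib
import Fermat.Agent.Jac.AlgChart76.QTr
import Fermat.Agent.Jac.P1CohChi.Twist
import Fermat.Agent.Jac.RiemannCover82.Cover

set_option autoImplicit false
set_option linter.unusedSectionVars false
set_option linter.style.haveILetI false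

universe u

open TensorProduct

namespace Fermat.Agent.Jac.AlgChart76

open scoped Fermat.Agent.Jac.BaseChange75
open JSmooth85Alg BaseChange75 LineOps39

variable {k : Type u} [Field k] {B0 B1 B01 : Type u} [CommRing B0] [CommRing B1] [CommRing B01]
  [Algebra k B0] [Algebra k B1] [Algebra k B01] [Algebra B0 B01] [Algebra B1 B01]
  [IsScalarTower k B0 B01] [IsScalarTower k B1 B01]
  (c0 : TwoChart k B0 B1 B01)

/-- Twist by `m` times the divisor at infinity. -/
def twistQC (m : ℤ) {A : Type u} [CommRing A] [Algebra k A] (L : QCA k B0 B1 B01 A) :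
    QCA k B0 B1 B01 A :=
  L.twist (c0.baseChange A) m

/-- Down-twist at the `A`-point of chart 0 induced by the `k`-point `q`. -/
noncomputable def pointQC (q : B0 →ₐ[k] k) {A : Type u} [CommRing A] [Algebra k A]
    (L : QCA k B0 B1 B01 A) : QCA k B0 B1 B01 A :=
  downTwist (c0.baseChange A) L (IdealPair.ofChart0 (c0.baseChange A) (ptIdeal q A))

/-- `L ↦ L(m·D∞ - q₁ - ⋯ - qₙ)`. -/
noncomputable def translQC (m : ℤ) (l : List (B0 →ₐ[k] k)) {A : Type u} [CommRing A]
    [Algebra k A] (L : QCA k B0 B1 B01 A) : QCA k B0 B1 B01 A :=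
  l.foldl (fun M q => pointQC c0 q M) (twistQC c0 m L)

theorem foldl_pointQC_eq_downTwistList (l : List (B0 →ₐ[k] k)) {A : Type u} [CommRing A]
    [Algebra k A] (L : QCA k B0 B1 B01 A) :
    l.foldl (fun M q => pointQC c0 q M) L =
      RiemannCover82.Cover.downTwistList (c0.baseChange A) L (l.map (fun q => ptIdeal q A)) := by
  induction l generalizing L with
  | nil => rfl
  | cons q l ih =>
    rw [List.foldl_cons, ih, List.map_cons, RiemannCover82.Cover.downTwistList_cons]
    rfl

theorem translQC_eq_downTwistList (m : ℤ) (l : List (B0 →ₐ[k] k)) {A : Type u} [CommRing A]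
    [Algebra k A] (L : QCA k B0 B1 B01 A) :
    translQC c0 m l L =
      RiemannCover82.Cover.downTwistList (c0.baseChange A) (L.twist (c0.baseChange A) m)
        (l.map (fun q => ptIdeal q A)) :=
  foldl_pointQC_eq_downTwistList c0 l _

/-- The two elementary translation steps, as `QTr`s, with their effect on rigidifiability at `P0`
and on the fibrewise Euler characteristic (`d` = degree of the divisor at infinity). -/
structure TranslInputs (P0 : B1 →ₐ[k] k) (d : ℕ) where
  /-- twist by `m·D∞` -/
  tw : ℤ → QTr k B0 B1 B01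
  tw_T : ∀ (m : ℤ) {A : Type u} [CommRing A] [Algebra k A] (L : QCA k B0 B1 B01 A),
    (tw m).T L = twistQC c0 m L
  tw_rigid : ∀ m, (tw m).Rigid P0
  tw_chi : ∀ m, (tw m).ChiShift (m * d)
  /-- down-twist at a `k`-point of chart 0 -/
  pt : (B0 →ₐ[k] k) → QTr k B0 B1 B01
  pt_T : ∀ (q : B0 →ₐ[k] k) {A : Type u} [CommRing A] [Algebra k A] (L : QCA k B0 B1 B01 A),
    (pt q).T L = pointQC c0 q L
  pt_rigid : ∀ q, (pt q).Rigid P0
  pt_chi : ∀ q, (pt q).ChiShift (-1)

namespace TranslInputs

variable {c0} {P0 : B1 →ₐ[k] k} {d : ℕ} (I : TranslInputs c0 P0 d)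

/-- The composite of the point steps. -/
def ptList (l : List (B0 →ₐ[k] k)) : QTr k B0 B1 B01 := QTr.listComp (l.map I.pt)

theorem ptList_T (l : List (B0 →ₐ[k] k)) {A : Type u} [CommRing A] [Algebra k A]
    (L : QCA k B0 B1 B01 A) : (I.ptList l).T L = l.foldl (fun M q => pointQC c0 q M) L := by
  induction l generalizing L with
  | nil => rfl
  | cons q l ih =>
    show (QTr.listComp (l.map I.pt)).T ((I.pt q).T L) = _
    rw [List.foldl_cons, ← I.pt_T q L]
    exact ih _

theorem ptList_rigid (l : List (B0 →ₐ[k] k)) : (I.ptList l).Rigid P0 := by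
  induction l with
  | nil => exact QTr.Rigid.refl P0
  | cons q l ih => exact QTr.Rigid.comp ih (I.pt_rigid q)

theorem ptList_chi (l : List (B0 →ₐ[k] k)) : (I.ptList l).ChiShift (-(l.length : ℤ)) := by
  induction l with
  | nil =>
    intro A _ _ L hL p
    show L.chi p = L.chi p + -((([] : List (B0 →ₐ[k] k)).length : ℕ) : ℤ)
    simp
  | cons q l ih =>
    have e : -(((q :: l).length : ℕ) : ℤ) = (-1 : ℤ) + -(l.length : ℤ) := by
      simp only [List.length_cons, Nat.cast_add, Nat.cast_one]; ring
    rw [e]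
    exact QTr.ChiShift.comp (τ' := I.ptList l) (τ := I.pt q) ih (I.pt_chi q)

/-- The translation `L ↦ L(m·D∞ - q₁ - ⋯ - qₙ)` as a `QTr`. -/
def transl (m : ℤ) (l : List (B0 →ₐ[k] k)) : QTr k B0 B1 B01 := (I.ptList l).comp (I.tw m)

theorem transl_T (m : ℤ) (l : List (B0 →ₐ[k] k)) {A : Type u} [CommRing A] [Algebra k A]
    (L : QCA k B0 B1 B01 A) : (I.transl m l).T L = translQC c0 m l L := by
  show (I.ptList l).T ((I.tw m).T L) = _
  rw [I.ptList_T, I.tw_T]
  rfl

theorem transl_rigid (m : ℤ) (l : List (B0 →ₐ[k] k)) : (I.transl m l).Rigid P0 :=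
  QTr.Rigid.comp (I.ptList_rigid l) (I.tw_rigid m)

theorem transl_chi (m : ℤ) (l : List (B0 →ₐ[k] k)) :
    (I.transl m l).ChiShift (m * d + -(l.length : ℤ)) :=
  QTr.ChiShift.comp (I.ptList_chi l) (I.tw_chi m)

end TranslInputs

end Fermat.Agent.Jac.AlgChart76
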