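/-
Fermat/Agent/Jac/AlgChart76/FromCC.lean  (helper76)

JAC brick R2a, INSTANTIATION at a curve with charts `cc : CurveCharts c ε` over an algebraically
closed field: the package of algebraic charts of `FamDict14.fam cc = stdFam cc.P0 (chi0 cc)`,
with coordinate rings of finite type.
-/
import Mathlib
import Fermat.Agent.Jac.AlgChart76.Package
import Fermat.Agent.Jac.Cover12.CovFinal
import Fermat.Agent.Jac.InfData98Inv
import Fermat.Agent.Jac.CurveHyp98
import Fermat.Agent.Jac.Genus41
import Fermat.Agent.Jac.GeomIntegral40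
import Fermat.Agent.Jac.FamDict14

set_option autoImplicit false
set_option linter.unusedSectionVars false
set_option linter.style.haveILetI false

universe u

open CategoryTheory CategoryTheory.Limits AlgebraicGeometry AlgebraicGeometry.RelPicard
  NeronModelInfra GoodReductionJacobian TensorProduct

namespace Fermat.Agent.Jac.AlgChart76

open scoped Fermat.Agent.Jac.BaseChange75
open JSmooth85Alg BaseChange75 LineOps39

section Abstract

variable {k : Type u} [Field k] [IsAlgClosed k] {B0 B1 B01 : Type u}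
  [CommRing B0] [CommRing B1] [CommRing B01]
  [Algebra k B0] [Algebra k B1] [Algebra k B01] [Algebra B0 B01] [Algebra B1 B01]
  [IsScalarTower k B0 B01] [IsScalarTower k B1 B01]
  [Algebra.FiniteType k B0] [IsDedekindDomain B0] [IsDedekindDomain B1]
  {c0 : TwoChart k B0 B1 B01} {ιInf : Type} [Finite ιInf] {e : ιInf → (B1 →ₐ[k] k)}

/-- The covering hypothesis from helper12's `exists_cover_wCore`. -/
theorem covHyp_of_chartHyp (H : ChartHyp c0 e) (i₀ : ιInf) (hB0f : ¬ IsField B0)
    (hB1f : ¬ IsField B1) {g : ℕ} (hg : ChiBC36.chiUnit k B0 B1 B01 + g = 1) :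
    CovHyp c0 e i₀ g := by
  intro K _ _ M hM _ hχ
  have hg' : ChiBC36.chiUnit k B0 B1 B01 = 1 - (g : ℤ) := by linarith
  exact Cover12.CovFinal.exists_cover_wCore c0 e H.hc0 H.hInf i₀ hB0f hB1f H.hB0 H.hB1 hg' K M hM
    (fun p => by rw [hχ p, hg'])

/-- **R2a, abstract form**: a package of algebraic charts of finite type for
`stdFam P0 χ(O)`. -/
theorem exists_package (H : ChartHyp c0 e) (i₀ : ιInf) {P0 : B1 →ₐ[k] k} (hP0 : e i₀ = P0)
    (ht : Transcendental k c0.t) (hB0f : ¬ IsField B0) (hB1f : ¬ IsField B1)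
    {g : ℕ} (hg : ChiBC36.chiUnit k B0 B1 B01 + g = 1)
    (hinv0 : ∀ q : B0 →ₐ[k] k, Module.Invertible B0 (RingHom.ker q)) :
    ∃ pkgA : AlgChartPackage (stdFam (B0 := B0) (B01 := B01) P0 (ChiBC36.chiUnit k B0 B1 B01)),
      ∀ i, Algebra.FiniteType k (pkgA.chart i).H := by
  subst hP0
  obtain ⟨n, x, hx⟩ := HilbChart87.exists_generators k B0
  have hcov := covHyp_of_chartHyp H i₀ hB0f hB1f hg
  exact ⟨hilbPackage H i₀ ht hg hx hinv0 hcov, hilbPackage_finiteType H i₀ ht hg hx hinv0 hcov⟩

end Abstract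

section CC

variable {k : Type u} [Field k] [IsAlgClosed k] {C : Scheme.{u}}
  {c : C ⟶ Spec (CommRingCat.of k)}
  {ε : SchemeHomOver (𝟙 (Spec (CommRingCat.of k))) c}

/-- **R2a**: the package of algebraic charts of the moduli problem of the programme, with
coordinate rings of finite type over `k`. -/
theorem exists_pkgA (cc : CurveCharts c ε) :
    ∃ pkgA : AlgChartPackage (FamDict14.fam cc),
      ∀ i, Algebra.FiniteType k (pkgA.chart i).H := by
  haveI := CurveHyp80.isDedekindDomain_B0 cc
  haveI := CurveHyp80.isDedekindDomain_B1 cc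
  haveI := CurveHyp80.finiteType_B0 cc
  obtain ⟨ιInf, hfin, e, i₀, hP0, hInf, hinv⟩ := InfData98.exists_infData_invertible cc
  have H : ChartHyp cc.chart0 e :=
    { hc0 := CurveHyp80.finiteProjOverLine_chart0 cc
      hInf := hInf
      hinv := hinv
      hB0 := fun K _ _ => GeomIntegral40.isDomain_tensorProduct k K cc.B0
      hB1 := fun K _ _ => GeomIntegral40.isDomain_tensorProduct k K cc.B1 }
  exact exists_package H i₀ hP0 (CurveHyp98.transcendental_t cc) (CurveHyp80.not_isField_B0 cc)
    (CurveHyp80.not_isField_B1 cc) (Genus41.chiUnit_add_genus cc) (CurveHyp98.invertible_ker_B0 cc)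

end CC

end Fermat.Agent.Jac.AlgChart76
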