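/-
Fermat/Agent/Jac/AlgChart76/Points.lean  (helper76)

JAC brick R2a: `k`-rational points of a chart, over a test ring `A`.

For a `k`-algebra `B` and a `k`-point `e : B →ₐ[k] k`:
* `evalA e A : A ⊗[k] B →ₐ[A] A`, evaluation at the `A`-point induced by `e`;
* `ptIdeal e A = RingHom.ker (evalA e A)`, equal to the extension of `ker e` (`ptIdeal_eq_map`),
  compatible with base change (`ptIdeal_map_left`);
* `RigidMod e A N` : the fibre `A ⊗[A ⊗ B] N` at the point is free of rank one (verbatim
  helper87's `CurveCharts.RigidMod` with `cc.P0` replaced by `e`), invariant under isomorphism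
  (`RigidMod.congr`) and base change (`RigidMod.baseChange`).
-/
import Mathlib
import Fermat.Agent.Jac.BaseChange75.Rings

set_option autoImplicit false
set_option linter.unusedSectionVars false
set_option linter.style.haveILetI false

universe u

open TensorProduct

namespace Fermat.Agent.Jac.AlgChart76

open scoped Fermat.Agent.Jac.BaseChange75
open BaseChange75

section AbstractRigid

variable {A A' R R' N N' : Type u} [CommRing A] [CommRing A'] [CommRing R] [CommRing R']
  [AddCommGroup N] [AddCommGroup N'] [iAA' : Algebra A A'] [iRR' : Algebra R R']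
  [iRA : Algebra R A] [iR'A' : Algebra R' A'] [iRA' : Algebra R A']
  [t1 : IsScalarTower R A A'] [t2 : IsScalarTower R R' A'] [Module R N] [Module R' N']

/-- Base change of a rigidification (abstract form): from `A ⊗[R] N ≃ A` to
`A' ⊗[R'] (R' ⊗[R] N) ≃ A'` for a commutative square `R → R' → A'`, `R → A → A'`. -/
noncomputable def rigidBaseChange (ρ : A ⊗[R] N ≃ₗ[A] A) : A' ⊗[R'] (R' ⊗[R] N) ≃ₗ[A'] A' :=
  (TensorProduct.AlgebraTensorModule.cancelBaseChange R R' A' A' N) ≪≫ₗ
    (TensorProduct.AlgebraTensorModule.cancelBaseChange R A A' A' N).symm ≪≫ₗ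
    (TensorProduct.AlgebraTensorModule.congr (LinearEquiv.refl A' A') ρ) ≪≫ₗ
    TensorProduct.AlgebraTensorModule.rid A A' A'

/-- Abstract base change of rigidifiability. -/
theorem nonempty_rigid_baseChange (f : R' ⊗[R] N ≃ₗ[R'] N') (ρ : A ⊗[R] N ≃ₗ[A] A) :
    Nonempty (A' ⊗[R'] N' ≃ₗ[A'] A') :=
  ⟨(TensorProduct.AlgebraTensorModule.congr (LinearEquiv.refl A' A') f.symm) ≪≫ₗ
    rigidBaseChange (A := A) (A' := A') (R := R) (R' := R') ρ⟩

end AbstractRigid

section Eval

variable {k : Type u} [Field k] {B : Type u} [CommRing B] [Algebra k B]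

/-- Evaluation at the `A`-point induced by a `k`-point `e` of `Spec B`:
`A ⊗[k] B → A`, `a ⊗ b ↦ a * e b`. -/
noncomputable def evalA (e : B →ₐ[k] k) (A : Type u) [CommRing A] [Algebra k A] :
    A ⊗[k] B →ₐ[A] A :=
  Algebra.TensorProduct.lift (AlgHom.id A A) ((Algebra.ofId k A).comp e)
    (fun _ _ => Commute.all _ _)

@[simp]
theorem evalA_tmul (e : B →ₐ[k] k) (A : Type u) [CommRing A] [Algebra k A] (a : A) (b : B) :
    evalA e A (a ⊗ₜ[k] b) = a * algebraMap k A (e b) := by
  simp [evalA, Algebra.ofId_apply]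

theorem evalA_surjective (e : B →ₐ[k] k) (A : Type u) [CommRing A] [Algebra k A] :
    Function.Surjective (evalA e A) := fun a => ⟨a ⊗ₜ[k] 1, by simp⟩

/-- The ideal of the `A`-point induced by `e`. -/
noncomputable def ptIdeal (e : B →ₐ[k] k) (A : Type u) [CommRing A] [Algebra k A] : Ideal (A ⊗[k] B) :=
  RingHom.ker (evalA e A)

theorem mem_ptIdeal (e : B →ₐ[k] k) (A : Type u) [CommRing A] [Algebra k A] (x : A ⊗[k] B) :
    x ∈ ptIdeal e A ↔ evalA e A x = 0 := Iff.rfl

theorem one_tmul_mem_ptIdeal (e : B →ₐ[k] k) (A : Type u) [CommRing A] [Algebra k A] {b : B}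
    (hb : e b = 0) : (1 : A) ⊗ₜ[k] b ∈ ptIdeal e A := by
  rw [mem_ptIdeal, evalA_tmul, hb, map_zero, mul_zero]

theorem evalA_eq_rid_map (e : B →ₐ[k] k) (A : Type u) [CommRing A] [Algebra k A] :
    evalA e A = (Algebra.TensorProduct.rid k A A).toAlgHom.comp
      (Algebra.TensorProduct.map (AlgHom.id A A) e) := by
  apply Algebra.TensorProduct.ext'
  intro a b
  simp [Algebra.smul_def, mul_comm]

/-- The ideal of the `A`-point is the extension of the ideal of the `k`-point. -/
theorem ptIdeal_eq_map (e : B →ₐ[k] k) (A : Type u) [CommRing A] [Algebra k A] :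
    ptIdeal e A = (RingHom.ker e).map
      (Algebra.TensorProduct.includeRight : B →ₐ[k] A ⊗[k] B) := by
  have he : Function.Surjective e := fun a => ⟨algebraMap k B a, by simp⟩
  rw [← Algebra.TensorProduct.lTensor_ker (A := A) e he]
  ext x
  rw [mem_ptIdeal, evalA_eq_rid_map, RingHom.mem_ker]
  simp only [AlgHom.coe_comp, Function.comp_apply]
  have h1 : ∀ y : A ⊗[k] k, (Algebra.TensorProduct.rid k A A).toAlgHom y = 0 ↔ y = 0 := fun y =>
    (Algebra.TensorProduct.rid k A A).map_eq_zero_iff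
  rw [h1]
  exact Iff.rfl

/-- The ideal of the point is compatible with base change. -/
theorem ptIdeal_map_left (e : B →ₐ[k] k) (A A' : Type u) [CommRing A] [CommRing A'] [Algebra k A]
    [Algebra k A'] [Algebra A A'] [IsScalarTower k A A'] :
    (ptIdeal e A).map (algebraMap (A ⊗[k] B) (A' ⊗[k] B)) = ptIdeal e A' := by
  rw [ptIdeal_eq_map, ptIdeal_eq_map]
  have h : (algebraMap (A ⊗[k] B) (A' ⊗[k] B)).comp
      ((Algebra.TensorProduct.includeRight : B →ₐ[k] A ⊗[k] B) : B →+* A ⊗[k] B) =
      ((Algebra.TensorProduct.includeRight : B →ₐ[k] A' ⊗[k] B) : B →+* A' ⊗[k] B) := by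
    ext b
    simp
  have h1 : (RingHom.ker e).map (Algebra.TensorProduct.includeRight : B →ₐ[k] A ⊗[k] B) =
      (RingHom.ker e).map ((Algebra.TensorProduct.includeRight : B →ₐ[k] A ⊗[k] B) :
        B →+* A ⊗[k] B) := rfl
  have h2 : (RingHom.ker e).map (Algebra.TensorProduct.includeRight : B →ₐ[k] A' ⊗[k] B) =
      (RingHom.ker e).map ((Algebra.TensorProduct.includeRight : B →ₐ[k] A' ⊗[k] B) :
        B →+* A' ⊗[k] B) := rfl
  rw [h1, h2, Ideal.map_map, h]

/-- Evaluation is compatible with base change. -/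
theorem evalA_algebraMap_left (e : B →ₐ[k] k) (A A' : Type u) [CommRing A] [CommRing A']
    [Algebra k A] [Algebra k A'] [Algebra A A'] [IsScalarTower k A A'] (x : A ⊗[k] B) :
    evalA e A' (algebraMap (A ⊗[k] B) (A' ⊗[k] B) x) = algebraMap A A' (evalA e A x) := by
  induction x using TensorProduct.induction_on with
  | zero => simp
  | add x y hx hy => rw [map_add, map_add, map_add, map_add, hx, hy]
  | tmul a b =>
    rw [algebraMap_left_tmul, evalA_tmul, evalA_tmul, map_mul,
      ← IsScalarTower.algebraMap_apply k A A']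

/-- `A` as an algebra over `A ⊗[k] B` through evaluation at the point (activate with `letI`). -/
@[reducible] noncomputable def algEval (e : B →ₐ[k] k) (A : Type u) [CommRing A] [Algebra k A] :
    Algebra (A ⊗[k] B) A := (evalA e A).toRingHom.toAlgebra

/-- The fibre of the `A ⊗[k] B`-module `N` at the `A`-point induced by `e` is free of rank one
over `A`. -/
def RigidMod (e : B →ₐ[k] k) (A : Type u) [CommRing A] [Algebra k A] (N : Type u)
    [AddCommGroup N] [Module (A ⊗[k] B) N] : Prop :=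
  letI := algEval e A
  Nonempty (A ⊗[A ⊗[k] B] N ≃ₗ[A] A)

theorem RigidMod.congr {e : B →ₐ[k] k} {A : Type u} [CommRing A] [Algebra k A] {N N' : Type u}
    [AddCommGroup N] [Module (A ⊗[k] B) N] [AddCommGroup N'] [Module (A ⊗[k] B) N']
    (f : N ≃ₗ[A ⊗[k] B] N') (h : RigidMod e A N) : RigidMod e A N' := by
  letI := algEval e A
  obtain ⟨ρ⟩ := h
  exact ⟨(TensorProduct.AlgebraTensorModule.congr (LinearEquiv.refl A A) f.symm) ≪≫ₗ ρ⟩

theorem RigidMod.baseChange {e : B →ₐ[k] k} {A A' : Type u} [CommRing A] [CommRing A']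
    [Algebra k A] [Algebra k A'] [Algebra A A'] [IsScalarTower k A A'] {N N' : Type u}
    [AddCommGroup N] [Module (A ⊗[k] B) N] [AddCommGroup N'] [Module (A' ⊗[k] B) N']
    (f : (A' ⊗[k] B) ⊗[A ⊗[k] B] N ≃ₗ[A' ⊗[k] B] N') (h : RigidMod e A N) :
    RigidMod e A' N' := by
  letI i1 := algEval e A
  letI i2 := algEval e A'
  letI i3 : Algebra (A ⊗[k] B) A' := ((algebraMap A A').comp (evalA e A).toRingHom).toAlgebra
  haveI t1 : IsScalarTower (A ⊗[k] B) A A' := IsScalarTower.of_algebraMap_eq (fun x => rfl)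
  haveI t2 : @IsScalarTower (A ⊗[k] B) (A' ⊗[k] B) A' (algLeft k A A' B).toSMul _ _ :=
    @IsScalarTower.of_algebraMap_eq (A ⊗[k] B) (A' ⊗[k] B) A' _ _ _ (algLeft k A A' B) i2 i3
      (fun x => by
        show algebraMap A A' (evalA e A x) = evalA e A' _
        exact (evalA_algebraMap_left e A A' x).symm)
  obtain ⟨ρ⟩ := h
  exact nonempty_rigid_baseChange (iRR' := algLeft k A A' B) (t2 := t2) f ρ

end Eval

end Fermat.Agent.Jac.AlgChart76
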